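import Fermat.Agent.S17.H.Curve
import Fermat.Agent.S17.Defs
import Fermat.Agent.S17.W.Cusp
import Fermat.Agent.S17.W.Defs
import Fermat.Agent.S24.Export.Ramification

/-!
# S17, route H, block GLUE: definitions (owner helper261)

Abstract part: `K` algebraically closed of characteristic zero, `F/K` a function field of one
variable, `P₀` a place ("infinity").

* `Aff P₀`      : the `K`-algebra of the functions regular outside `P₀`
* `ptOf P₀ v hv`: evaluation at the place `v ≠ P₀`, a `K`-point of `Aff P₀`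
* `placeOf P`   : the place of a `K`-point (junk value `P₀` if there is none; there always is one)
* `divE E`      : the reduced effective divisor of a finite set of points
* `idl E`       : the ideal of a finite set of points (`= H.idealOf E` when `K = ℚ̄`)

Modular part: `AN N = Aff (cusp N)`, `clsE`, `cl`.
-/

set_option autoImplicit false

noncomputable section

open scoped Classical

namespace Fermat.Agent.S17.H.Glue

open AlgebraicCurve Fermat.Agent.S24.FF Fermat.Agent.S27

section Abstract

variable {K F : Type*} [Field K] [Field F] [Algebra K F]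

/-- The functions regular outside `P₀`. -/
def Aff (P₀ : Place K F) : Subalgebra K F where
  carrier := {f | ∀ v : Place K F, v ≠ P₀ → f ∈ v.toValuationSubring}
  mul_mem' := fun ha hb v hv => mul_mem (ha v hv) (hb v hv)
  add_mem' := fun ha hb v hv => add_mem (ha v hv) (hb v hv)
  algebraMap_mem' := fun r v _ => v.algebraMap_mem' r

theorem mem_Aff_iff {P₀ : Place K F} {f : F} :
    f ∈ Aff P₀ ↔ ∀ v : Place K F, v ≠ P₀ → 0 ≤ v.ord f :=
  ⟨fun h v hv => ord_nonneg_of_mem v (h v hv), fun h v hv => mem_of_ord_nonneg v (h v hv)⟩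

/-- The `K`-points of the affine curve. -/
abbrev Pts (P₀ : Place K F) : Type _ := Aff P₀ →ₐ[K] K

/-- Evaluation at a place `v ≠ P₀`. -/
def ptOf [IsAlgClosed K] [IsFF1 K F] (P₀ v : Place K F) (hv : v ≠ P₀) : Pts P₀ where
  toFun f := ev v (f : F)
  map_one' := by
    have := ev_algebraMap v (1 : K)
    rwa [map_one] at this
  map_mul' f g := ev_mul (mem_Aff_iff.mp f.2 v hv) (mem_Aff_iff.mp g.2 v hv)
  map_zero' := by
    have := ev_algebraMap v (0 : K)
    rwa [map_zero] at this
  map_add' f g := ev_add (mem_Aff_iff.mp f.2 v hv) (mem_Aff_iff.mp g.2 v hv)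
  commutes' c := ev_algebraMap v c

theorem ptOf_apply [IsAlgClosed K] [IsFF1 K F] (P₀ v : Place K F) (hv : v ≠ P₀) (f : Aff P₀) :
    ptOf P₀ v hv f = ev v (f : F) := rfl

/-- The place of a point (junk value `P₀`). -/
def placeOf [IsAlgClosed K] [IsFF1 K F] {P₀ : Place K F} (P : Pts P₀) : Place K F :=
  if h : ∃ v : Place K F, ∃ hv : v ≠ P₀, ptOf P₀ v hv = P then h.choose else P₀

/-- The reduced effective divisor of a finite set of points. -/
def divE [IsAlgClosed K] [IsFF1 K F] {P₀ : Place K F} (E : Finset (Pts P₀)) : Divisor K F :=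
  ∑ P ∈ E, pt (placeOf P)

/-- The ideal of a finite set of points. -/
def idl {P₀ : Place K F} (E : Finset (Pts P₀)) : Ideal (Aff P₀) :=
  ⨅ P ∈ E, RingHom.ker (P : Aff P₀ →+* K)

/-- `n` is a pole order at `P₀` of a function regular outside `P₀`. -/
def IsPole (P₀ : Place K F) (n : ℕ) : Prop := ∃ f ∈ Aff P₀, f ≠ 0 ∧ P₀.ord f = -(n : ℤ)

end Abstract

section Modular

open ModularCurve Fermat.Agent.S24 Fermat.Agent.GAL.E Fermat.Agent.S17.W

instance instIsFF1 (N : ℕ) [NeZero N] : IsFF1 Kbar (FN N) := Export.isFF1 N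

instance instNonConst (N : ℕ) [NeZero N] : NonConst Kbar (FN N) :=
  ⟨⟨jF N, Formal.transcendental_jF N⟩⟩

/-- The functions on `X₀(N)` over `ℚ̄` regular outside the cusp `∞`. -/
abbrev AN (N : ℕ) : Type := ↥(Aff (cusp N))

/-- the Mordell-Weil group. -/
abbrev MW (N : ℕ) : Type :=
  ↥(FixedPoints.addSubgroup ((AlgebraicClosure ℚ) ≃ₐ[ℚ] (AlgebraicClosure ℚ)) (JZero N))

/-- an element of the function field is fixed by the Galois group, i.e. it has a rational
`q`-expansion -/
def IsFix (N : ℕ) (f : FN N) : Prop := ∀ σ : GQ, galF N σ f = f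

/-- a divisor is fixed by the Galois group -/
def IsFixD (N : ℕ) (D : Divisor Kbar (FN N)) : Prop := ∀ σ : GQ, gal N σ • D = D

/-- the class `[E - |E| ∞]` -/
def clsE (N : ℕ) [NeZero N] (E : Finset (Pt (AN N))) : JZero N :=
  cls (divE E - E.card • pt (cusp N))

/-- the class `[E - |E| ∞]` as an element of the Mordell-Weil group (`0` if it is not fixed) -/
def cl (N : ℕ) [NeZero N] (E : Finset (Pt (AN N))) : MW N :=
  if h : clsE N E ∈ FixedPoints.addSubgroup ((AlgebraicClosure ℚ) ≃ₐ[ℚ] (AlgebraicClosure ℚ))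
    (JZero N) then ⟨clsE N E, h⟩ else 0

theorem idealOf_eq_idl (N : ℕ) (E : Finset (Pt (AN N))) : idealOf E = idl E := rfl

end Modular

end Fermat.Agent.S17.H.Glue
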