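import Fermat.Agent.S17.H.Glue.DivE
import Fermat.Agent.S17.F.Basic
import Fermat.Agent.S17.F.Avoid
import Fermat.Agent.S17.W.FixedDiv
import Fermat.Agent.S17.W.OpenStab
import Fermat.Agent.S27.FibRam
import Fermat.Agent.S27.H.Rationality

/-!
# S17, route H, block GLUE, sub-block `Cl`: the class `[E - |E| ∞]` in the Mordell-Weil group.
Owner: helper57.
-/

set_option autoImplicit false

noncomputable section

open scoped Classical

namespace Fermat.Agent.S17.H.Glue

open AlgebraicCurve Fermat.Agent.S24.FF Fermat.Agent.S27 Fermat.Agent.S17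

section Modular

open ModularCurve Fermat.Agent.S24 Fermat.Agent.GAL.E Fermat.Agent.S17.W

variable (N : ℕ) [NeZero N]

theorem Cl_degree (E : Finset (Pt (AN N))) :
    Divisor.degree (divE E - E.card • pt (cusp N)) = 0 := by
  rw [map_sub, degree_divE, map_nsmul, degree_pt]
  simp

theorem Cl_smul_pt_cusp (σ : GQ) : gal N σ • pt (cusp N) = pt (cusp N) := by
  rw [pt, SemilinearAut.smul_single, W.smul_cusp]

theorem clsE_mem (E : Finset (Pt (AN N))) (h : IsFixD N (divE E)) :
    clsE N E ∈ FixedPoints.addSubgroup ((AlgebraicClosure ℚ) ≃ₐ[ℚ] (AlgebraicClosure ℚ))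
      (JZero N) := by
  intro σ
  show gal N σ • clsE N E = clsE N E
  rw [clsE, cls_eq_mk (Cl_degree N E), SemilinearAut.pic0_smul_mk]
  refine congrArg Pic0.mk (Subtype.ext ?_)
  rw [SemilinearAut.coe_degZeroSMulHom]
  show gal N σ • (divE E - E.card • pt (cusp N)) = divE E - E.card • pt (cusp N)
  rw [smul_sub, h σ, smul_comm, Cl_smul_pt_cusp]

theorem coe_cl (E : Finset (Pt (AN N))) (h : IsFixD N (divE E)) :
    (cl N E : JZero N) = clsE N E := by
  rw [cl, dif_pos (clsE_mem N E h)]

theorem cl_union (E E' : Finset (Pt (AN N))) (hE : IsFixD N (divE E)) (hE' : IsFixD N (divE E'))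
    (hd : Disjoint E E') : cl N (E ∪ E') = cl N E + cl N E' := by
  have hu : IsFixD N (divE (E ∪ E')) := by
    intro σ
    rw [divE_union _ E E' hd, smul_add, hE σ, hE' σ]
  apply Subtype.ext
  rw [AddSubgroup.coe_add, coe_cl N _ hu, coe_cl N _ hE, coe_cl N _ hE', clsE, clsE, clsE,
    ← cls_add (Cl_degree N E) (Cl_degree N E'), divE_union _ E E' hd,
    Finset.card_union_of_disjoint hd, add_smul]
  congr 1
  abel

end Modular

end Fermat.Agent.S17.H.Glue
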