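import Fermat.Agent.S17.H.Glue.Defs
import Fermat.Agent.GAL.E.FiniteLevel

/-!
# S17, route H, block GLUE, node `Gal` (helper258): the Galois action on functions, places,
values, Riemann-Roch spaces and divisors of functions.
-/

set_option autoImplicit false

noncomputable section

open scoped Classical

namespace Fermat.Agent.S17.H.Glue

open AlgebraicCurve Fermat.Agent.S24.FF Fermat.Agent.S27 Fermat.Agent.S17

section Modular

open ModularCurve Fermat.Agent.S24 Fermat.Agent.GAL.E Fermat.Agent.S17.W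

variable (N : ℕ) [NeZero N]

/-! ### Block `Gal` -/

theorem coeff_galF (σ : GQ) (f : FN N) (n : ℤ) :
    (galF N σ f : LaurentSeries Kbar).coeff n = σ ((f : LaurentSeries Kbar).coeff n) := by
  rw [coe_galF, coeffMap_coeff]
  rfl

theorem ord_gal (σ : GQ) (v : Place Kbar (FN N)) (f : FN N) :
    (gal N σ • v).ord (galF N σ f) = v.ord f :=
  SemilinearAut.ord_smul (gal N σ) v f

/-- the order of `σ f` at an arbitrary place -/
theorem ord_galF_eq (σ : GQ) (v : Place Kbar (FN N)) (f : FN N) :
    v.ord (galF N σ f) = ((gal N σ)⁻¹ • v).ord f := by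
  have h := ord_gal N σ ((gal N σ)⁻¹ • v) f
  rwa [smul_inv_smul] at h

theorem galF_mem_Aff (σ : GQ) {f : FN N} (hf : f ∈ Aff (cusp N)) :
    galF N σ f ∈ Aff (cusp N) := by
  rw [mem_Aff_iff] at hf ⊢
  intro v hv
  rw [ord_galF_eq]
  apply hf
  intro hc
  apply hv
  rw [inv_smul_eq_iff] at hc
  rw [hc]
  exact smul_cusp N σ

theorem ev_gal (σ : GQ) (v : Place Kbar (FN N)) (f : FN N) :
    ev (gal N σ • v) (galF N σ f) = σ (ev v f) := by
  rcases lt_or_ge (v.ord f) 0 with h | h
  · rw [ev_of_ord_neg h, ev_of_ord_neg (by rwa [ord_gal]), map_zero]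
  · apply ev_eq_of_isVal
    rcases isVal_ev h with h1 | h1
    · left
      conv_lhs => rw [h1]
      exact galF_algebraMap N σ _
    · right
      rw [← galF_algebraMap, ← map_sub, ord_gal]
      exact h1

theorem galF_mem_L (σ : GQ) {D : Divisor Kbar (FN N)} {f : FN N} (hf : f ∈ riemannRochSpace D) :
    galF N σ f ∈ riemannRochSpace (gal N σ • D) := by
  rw [mem_riemannRochSpace_iff] at hf ⊢
  intro v
  rcases hf ((gal N σ)⁻¹ • v) with h | h
  · left
    rw [h, map_zero]
  · right
    rw [SemilinearAut.divisor_smul_apply, ord_galF_eq]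
    exact h

theorem isDivOf_gal (σ : GQ) {D : Divisor Kbar (FN N)} {f : FN N} (hf : IsDivOf D f) :
    IsDivOf (gal N σ • D) (galF N σ f) := by
  refine ⟨?_, fun v => ?_⟩
  · intro h
    exact hf.1 ((map_eq_zero_iff _ (galF N σ).injective).mp h)
  · rw [SemilinearAut.divisor_smul_apply, ord_galF_eq]
    exact hf.2 _

theorem finite_orbit (f : FN N) : (Set.range fun σ : GQ => galF N σ f).Finite := by
  obtain ⟨L, hL, h⟩ := exists_finite_level N f
  have key : ∀ σ τ : GQ, (∀ x ∈ L, σ x = τ x) → galF N σ f = galF N τ f := by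
    intro σ τ hστ
    have h1 := h (τ⁻¹ * σ) (fun x hx => by
      show τ⁻¹ (σ x) = x
      rw [hστ x hx]
      exact τ.symm_apply_apply x)
    have h2 : galF N σ f = galF N (τ * (τ⁻¹ * σ)) f := by rw [mul_inv_cancel_left]
    rw [h2, galF_mul, h1]
  let r : GQ → (L →ₐ[ℚ] Kbar) := fun σ => (σ : Kbar →ₐ[ℚ] Kbar).comp L.val
  have : Finite (Set.range fun σ : GQ => galF N σ f) := by
    apply Finite.of_injective (fun y : Set.range fun σ : GQ => galF N σ f => r y.2.choose)
    intro y y' hyy
    apply Subtype.ext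
    rw [← y.2.choose_spec, ← y'.2.choose_spec]
    apply key
    intro x hx
    exact DFunLike.congr_fun hyy ⟨x, hx⟩
  exact Set.toFinite _

theorem mem_range_of_forall_fixed (c : Kbar) (h : ∀ σ : GQ, σ c = c) :
    c ∈ Set.range (algebraMap ℚ Kbar) := by
  have h0 : (DivisionRing.toRatAlgebra : Algebra ℚ (AlgebraicClosure ℚ)) =
      AlgebraicClosure.instAlgebra ℚ := Subsingleton.elim _ _
  have h1 : IsAlgClosure ℚ (AlgebraicClosure ℚ) := by
    rw [h0]
    infer_instance
  have h2 : IsGalois ℚ Kbar := inferInstance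
  exact (InfiniteGalois.mem_range_algebraMap_iff_fixed c).mpr h

end Modular

end Fermat.Agent.S17.H.Glue
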