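import Fermat.Agent.S17.H.Glue.Defs
import Fermat.Agent.S17.H.Glue.Gal
import Fermat.Agent.S17.F.Basic
import Fermat.Agent.S17.F.Avoid
import Fermat.Agent.S17.W.FixedDiv
import Fermat.Agent.S17.W.OpenStab
import Fermat.Agent.S27.FibRam
import Fermat.Agent.S27.H.Rationality

/-!
# S17, route H, block GLUE, node `FixFun` (task 1713, helper198)

A principal divisor fixed by the Galois group is the divisor of a function fixed by the Galois
group: normalise the leading coefficient of the `q`-expansion.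
-/

set_option autoImplicit false

noncomputable section

open scoped Classical

namespace Fermat.Agent.S17.H.Glue

open AlgebraicCurve Fermat.Agent.S24.FF Fermat.Agent.S27 Fermat.Agent.S17

section Modular

open ModularCurve Fermat.Agent.S24 Fermat.Agent.GAL.E Fermat.Agent.S17.W

variable (N : ℕ) [NeZero N]

omit [NeZero N] in
private theorem coe_algebraMap_mul (c : Kbar) (f : FN N) (n : ℤ) :
    ((algebraMap Kbar (FN N) c * f : FN N) : LaurentSeries Kbar).coeff n =
      c * (f : LaurentSeries Kbar).coeff n := by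
  have h0 : ((algebraMap Kbar (FN N) c : FN N) : LaurentSeries Kbar) = HahnSeries.C c := by
    show algebraMap Kbar (LaurentSeries Kbar) c = HahnSeries.C c
    rw [algebraMap_laurentSeries_eq_single]
    rfl
  have h1 : ((algebraMap Kbar (FN N) c * f : FN N) : LaurentSeries Kbar) =
      ((algebraMap Kbar (FN N) c : FN N) : LaurentSeries Kbar) * (f : LaurentSeries Kbar) := rfl
  rw [h1, h0, HahnSeries.C_mul_eq_smul, HahnSeries.coeff_smul, smul_eq_mul]

theorem exists_isFix_of_isFixD (D : Divisor Kbar (FN N)) (hD : IsFixD N D) (f : FN N)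
    (hf : IsDivOf D f) : ∃ f' : FN N, IsFix N f' ∧ IsDivOf D f' := by
  obtain ⟨hf0, hfD⟩ := hf
  have hs0 : (f : LaurentSeries Kbar) ≠ 0 := fun h => hf0 (Subtype.ext h)
  set n : ℤ := (f : LaurentSeries Kbar).order with hn
  set a : Kbar := (f : LaurentSeries Kbar).coeff n with ha
  have ha0 : a ≠ 0 := fun h => hs0 (HahnSeries.coeff_order_eq_zero.mp h)
  have hc0 : algebraMap Kbar (FN N) a⁻¹ ≠ 0 := (map_ne_zero _).mpr (inv_ne_zero ha0)
  set f' : FN N := algebraMap Kbar (FN N) a⁻¹ * f with hf'
  have hf'0 : f' ≠ 0 := mul_ne_zero hc0 hf0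
  have hdiv : IsDivOf D f' :=
    ⟨hf'0, fun v => by rw [hf', Place.ord_mul v hc0 hf0, ord_algebraMap, zero_add, hfD v]⟩
  have hcoeff : (f' : LaurentSeries Kbar).coeff n = 1 := by
    rw [hf', coe_algebraMap_mul, ← ha, inv_mul_cancel₀ ha0]
  refine ⟨f', fun σ => ?_, hdiv⟩
  have h1 : IsDivOf D (galF N σ f') := by
    have := isDivOf_gal N σ hdiv
    rwa [hD σ] at this
  obtain ⟨c, hc⟩ := eq_algebraMap_of_forall_ord_nonneg (K := Kbar) (galF N σ f' * f'⁻¹)
    (fun v => by
      rw [Place.ord_mul v h1.1 (inv_ne_zero hf'0), Place.ord_inv, ← h1.2 v, ← hdiv.2 v,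
        add_neg_cancel])
  have h2 : galF N σ f' = algebraMap Kbar (FN N) c * f' := by
    rw [← hc, mul_assoc, inv_mul_cancel₀ hf'0, mul_one]
  have h3 : c = 1 := by
    have h4 := coeff_galF N σ f' n
    rw [h2, coe_algebraMap_mul, hcoeff, mul_one, map_one] at h4
    exact h4
  rw [h2, h3, map_one, one_mul]

end Modular

end Fermat.Agent.S17.H.Glue
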