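import Fermat.Agent.S17.H.Glue.Defs
import Fermat.Agent.S17.F.Basic
import Fermat.Agent.S27.WRR2

/-!
# S17, route H, block GLUE: basic facts on `Aff P₀` (owner helper261)
-/

set_option autoImplicit false
set_option linter.unusedSectionVars false

noncomputable section

open scoped Classical

namespace Fermat.Agent.S17.H.Glue

open AlgebraicCurve Fermat.Agent.S24.FF Fermat.Agent.S27 Fermat.Agent.S17

variable {K F : Type*} [Field K] [Field F] [Algebra K F] [IsAlgClosed K] [CharZero K] [IsFF1 K F]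
  [NonConst K F] (P₀ : Place K F)

theorem exists_const {f : F} (hf : f ∈ Aff P₀) (h : 0 ≤ P₀.ord f) :
    ∃ c : K, f = algebraMap K F c := by
  apply eq_algebraMap_of_forall_ord_nonneg
  intro v
  by_cases hv : v = P₀
  · rw [hv]; exact h
  · exact mem_Aff_iff.mp hf v hv

theorem ord_le_zero {f : F} (hf : f ∈ Aff P₀) (_h0 : f ≠ 0) : P₀.ord f ≤ 0 := by
  by_contra hcon
  push Not at hcon
  obtain ⟨c, rfl⟩ := exists_const P₀ hf hcon.le
  rw [ord_algebraMap] at hcon
  exact lt_irrefl _ hcon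

theorem ord_neg_of_transcendental {t : F} (ht : t ∈ Aff P₀) (h : Transcendental K t) :
    P₀.ord t < 0 := by
  by_contra hcon
  push Not at hcon
  obtain ⟨c, rfl⟩ := exists_const P₀ ht hcon
  exact h (isAlgebraic_algebraMap c)

theorem exists_transcendental : ∃ t ∈ Aff P₀, Transcendental K t := by
  obtain ⟨f, hf, hf'⟩ := exists_pole_only_at P₀
  refine ⟨f, mem_Aff_iff.mpr hf', ?_⟩
  rcases exists_const_or_transcendental (K := K) f with ⟨c, rfl⟩ | h
  · rw [ord_algebraMap] at hf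
    exact absurd hf (lt_irrefl _)
  · exact h

omit [CharZero K] [NonConst K F] [IsAlgClosed K] [IsFF1 K F] in
theorem nsmul_pt_apply_of_ne (n : ℕ) {v : Place K F} (hv : v ≠ P₀) : (n • pt P₀) v = 0 := by
  rw [Finsupp.smul_apply, pt_apply_of_ne (Ne.symm hv), smul_zero]

omit [CharZero K] [NonConst K F] [IsAlgClosed K] [IsFF1 K F] in
theorem nsmul_pt_apply_self (n : ℕ) : (n • pt P₀) P₀ = n := by
  rw [Finsupp.smul_apply, pt_apply_self]
  simp

omit [CharZero K] [NonConst K F] [IsAlgClosed K] [IsFF1 K F] in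
/-- `L(n P₀ - D) ⊆ Aff P₀` for `D` effective -/
theorem mem_Aff_of_mem_L {f : F} {n : ℕ} {D : Divisor K F} (hD : 0 ≤ D)
    (hf : f ∈ riemannRochSpace (n • pt P₀ - D)) : f ∈ Aff P₀ := by
  rw [mem_Aff_iff]
  intro v hv
  rw [mem_riemannRochSpace_iff] at hf
  rcases hf v with rfl | h
  · simp
  · rw [Finsupp.sub_apply, nsmul_pt_apply_of_ne P₀ n hv] at h
    have : 0 ≤ D v := hD v
    omega

omit [CharZero K] [NonConst K F] [IsAlgClosed K] [IsFF1 K F] in
theorem mem_Aff_iff_exists_mem_L {f : F} :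
    f ∈ Aff P₀ ↔ ∃ n : ℕ, f ∈ riemannRochSpace (n • pt P₀) := by
  constructor
  · intro hf
    refine ⟨(-P₀.ord f).toNat, ?_⟩
    rw [mem_riemannRochSpace_iff]
    intro v
    right
    by_cases hv : v = P₀
    · subst hv
      rw [nsmul_pt_apply_self]
      have := Int.self_le_toNat (-v.ord f)
      omega
    · rw [nsmul_pt_apply_of_ne P₀ _ hv]
      have := mem_Aff_iff.mp hf v hv
      omega
  · rintro ⟨n, hf⟩
    apply mem_Aff_of_mem_L P₀ (n := n) (D := 0) le_rfl
    rwa [sub_zero]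

theorem exists_isPole_of_le : ∃ n₀ : ℕ, ∀ n, n₀ ≤ n → IsPole P₀ n := by
  refine ⟨h1Bound K F + 1, fun n hn => ?_⟩
  have hdeg : Divisor.degree (n • pt P₀) = n := by
    rw [map_nsmul, degree_pt]
    simp
  obtain ⟨f, hf, hf0, hord⟩ := Fermat.Agent.S17.F.exists_mem_L_ord_eq (n • pt P₀) P₀ (by rw [hdeg]; exact_mod_cast hn)
  refine ⟨f, (mem_Aff_iff_exists_mem_L P₀).mpr ⟨n, hf⟩, hf0, ?_⟩
  rw [hord, nsmul_pt_apply_self]

end Fermat.Agent.S17.H.Glue
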