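import Fermat.Agent.S17.H.Glue.Avoid
import Fermat.Agent.S17.F.Basic
import Fermat.Agent.S17.F.Avoid
import Fermat.Agent.S17.W.FixedDiv
import Fermat.Agent.S17.W.OpenStab
import Fermat.Agent.S27.FibRam
import Fermat.Agent.S27.H.Rationality
import Fermat.Agent.S17.H.Glue.Basic

/-!
# S17, route H, block GLUE, node `Fraction` (task S17-H-GL-Fraction, helper70)

A Galois-fixed function is a quotient of two Galois-fixed functions regular outside the cusp.
Nodes of other blocks used: `exists_isFix_avoid` (block `Avoid`, not landed yet),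
`mem_Aff_of_mem_L` (block `Basic`).
-/

set_option autoImplicit false

noncomputable section

open scoped Classical

namespace Fermat.Agent.S17.H.Glue

open AlgebraicCurve Fermat.Agent.S24.FF Fermat.Agent.S27 Fermat.Agent.S17

section Modular

open ModularCurve Fermat.Agent.S24 Fermat.Agent.GAL.E Fermat.Agent.S17.W

variable (N : ℕ) [NeZero N]

/-- the polar divisor of `f` outside the cusp. -/
private def fractionPol (f : FN N) : Divisor Kbar (FN N) :=
  Finsupp.ofSupportFinite (fun v => if v = cusp N then 0 else max 0 (-(v.ord f))) (by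
    refine (finite_ord_ne_zero f).subset fun v hv => ?_
    rw [Function.mem_support] at hv
    intro h0
    apply hv
    split_ifs
    · rfl
    · rw [h0]; simp)

private theorem fractionPol_apply (f : FN N) (v : Place Kbar (FN N)) :
    fractionPol N f v = if v = cusp N then 0 else max 0 (-(v.ord f)) := rfl

private theorem fractionPol_nonneg (f : FN N) : 0 ≤ fractionPol N f := by
  intro v
  rw [fractionPol_apply]
  split_ifs
  · exact le_rfl
  · exact le_max_left _ _

private theorem fractionPol_isFixD (f : FN N) (hf : IsFix N f) : IsFixD N (fractionPol N f) := by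
  intro σ
  ext w
  rw [SemilinearAut.divisor_smul_apply, fractionPol_apply, fractionPol_apply]
  have h1 : (gal N σ)⁻¹ • w = cusp N ↔ w = cusp N := by
    rw [inv_smul_eq_iff, smul_cusp]
  have h2 : ((gal N σ)⁻¹ • w).ord f = w.ord f := by
    have h3 : (gal N σ)⁻¹ • f = f := by
      rw [inv_smul_eq_iff]
      exact (hf σ).symm
    conv_lhs => rw [← h3]
    exact SemilinearAut.ord_smul _ w f
  simp only [h1, h2]

theorem exists_isFix_fraction (f : FN N) (hf : IsFix N f) (hf0 : f ≠ 0) :
    ∃ s s' : AN N, IsFix N (s : FN N) ∧ IsFix N (s' : FN N) ∧ s ≠ 0 ∧ s' ≠ 0 ∧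
      f = (s' : FN N) / (s : FN N) := by
  set Dm := fractionPol N f with hDm
  -- a large multiple of the cusp
  obtain ⟨n, hn⟩ : ∃ n : ℕ, (h1Bound Kbar (FN N) : ℤ) + 1 + Divisor.degree Dm ≤ n :=
    ⟨((h1Bound Kbar (FN N) : ℤ) + 1 + Divisor.degree Dm).toNat, Int.self_le_toNat _⟩
  set D : Divisor Kbar (FN N) := n • pt (cusp N) - Dm with hD
  have hdeg : (h1Bound Kbar (FN N) : ℤ) + 1 ≤ Divisor.degree D := by
    rw [hD, map_sub, map_nsmul, degree_pt]
    simp only [nsmul_eq_mul, mul_one]
    linarith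
  have hfix : IsFixD N D := by
    intro σ
    rw [hD, smul_sub, fractionPol_isFixD N f hf σ, smul_comm, pt, SemilinearAut.smul_single,
      smul_cusp]
  obtain ⟨s₀, hs₀, hs₀0, -⟩ := F.exists_mem_L_forall_ord_eq D ∅ hdeg
  obtain ⟨s, hs, hsfix, hsne⟩ := exists_isFix_avoid N D hfix {⊥} (by
    intro W hW hle
    rw [Finset.mem_singleton] at hW
    subst hW
    exact hs₀0 ((Submodule.mem_bot _).mp (hle hs₀)))
  have hs0 : s ≠ 0 := fun h => hsne ⊥ (Finset.mem_singleton_self _) ((Submodule.mem_bot _).mpr h)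
  have hsA : s ∈ Aff (cusp N) := mem_Aff_of_mem_L (cusp N) (fractionPol_nonneg N f) hs
  have hsfA : s * f ∈ Aff (cusp N) := by
    rw [mem_Aff_iff]
    intro v hv
    rw [Place.ord_mul v hs0 hf0]
    have h1 : -(D v) ≤ v.ord s := ((mem_riemannRochSpace_iff.mp hs) v).resolve_left hs0
    have h2 : D v = - max 0 (-(v.ord f)) := by
      rw [hD, Finsupp.sub_apply, Finsupp.smul_apply, pt_apply_of_ne (Ne.symm hv), hDm,
        fractionPol_apply, if_neg hv]
      simp
    rw [h2, neg_neg] at h1
    have h3 : -(v.ord f) ≤ max 0 (-(v.ord f)) := le_max_right _ _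
    linarith
  refine ⟨⟨s, hsA⟩, ⟨s * f, hsfA⟩, hsfix, ?_, ?_, ?_, ?_⟩
  · intro σ
    show galF N σ (s * f) = s * f
    rw [map_mul, hsfix σ, hf σ]
  · exact fun h => hs0 (congrArg Subtype.val h)
  · exact fun h => mul_ne_zero hs0 hf0 (congrArg Subtype.val h)
  · show f = s * f / s
    rw [mul_div_cancel_left₀ _ hs0]

end Modular

end Fermat.Agent.S17.H.Glue
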