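import Fermat.Agent.S17.H.Glue.DivE
import Fermat.Agent.S17.F.Avoid

/-!
# S17, route H, block GLUE: the ideals `(s) · I(E)` of `Aff P₀` in terms of divisors
-/

set_option autoImplicit false

noncomputable section

open scoped Classical

namespace Fermat.Agent.S17.H.Glue

open AlgebraicCurve Fermat.Agent.S24.FF Fermat.Agent.S27 Fermat.Agent.S17

section Abstract

variable {K F : Type*} [Field K] [Field F] [Algebra K F] [IsAlgClosed K] [CharZero K] [IsFF1 K F]
  [NonConst K F] (P₀ : Place K F)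

omit [IsAlgClosed K] [CharZero K] [IsFF1 K F] [NonConst K F] in
theorem ideals_mem_idl_iff (E : Finset (Pts P₀)) (h : Aff P₀) :
    h ∈ idl E ↔ ∀ P ∈ E, P h = 0 := by
  simp only [idl, Submodule.mem_iInf]
  rfl

theorem ideals_mem_idl_iff_ord (E : Finset (Pts P₀)) (h : Aff P₀) :
    h ∈ idl E ↔ h = 0 ∨ ∀ v : Place K F, v ≠ P₀ → divE E v ≤ v.ord (h : F) := by
  rw [ideals_mem_idl_iff]
  constructor
  · intro hh
    by_cases h0 : h = 0
    · exact Or.inl h0
    right
    intro v hv
    rw [divE_apply]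
    split_ifs with hex
    · obtain ⟨P, hP, rfl⟩ := hex
      have h1 := hh P hP
      rw [← ev_placeOf, ev_eq_zero_iff (mem_Aff_iff.mp h.2 _ hv)] at h1
      rcases h1 with h1 | h1
      · exact absurd (Subtype.ext h1) h0
      · omega
    · exact mem_Aff_iff.mp h.2 v hv
  · rintro (rfl | hh) P hP
    · exact map_zero P
    · have hv := placeOf_ne P₀ P
      rw [← ev_placeOf, ev_eq_zero_iff (mem_Aff_iff.mp h.2 _ hv)]
      right
      have h1 := hh _ hv
      rw [divE_apply, if_pos ⟨P, hP, rfl⟩] at h1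
      omega

theorem mem_span_mul_idl_iff (s : Aff P₀) (hs : s ≠ 0) (E : Finset (Pts P₀)) (f : Aff P₀) :
    f ∈ Ideal.span {s} * idl E ↔
      f = 0 ∨ ∀ v : Place K F, v ≠ P₀ → v.ord (s : F) + divE E v ≤ v.ord (f : F) := by
  have hs' : (s : F) ≠ 0 := fun h => hs (Subtype.ext h)
  rw [Ideal.mem_span_singleton_mul]
  constructor
  · rintro ⟨h, hh, rfl⟩
    rw [ideals_mem_idl_iff_ord] at hh
    rcases hh with rfl | hh
    · left
      rw [mul_zero]
    · by_cases h0 : h = 0
      · left
        rw [h0, mul_zero]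
      right
      intro v hv
      have h0' : (h : F) ≠ 0 := fun e => h0 (Subtype.ext e)
      have e : ((s * h : Aff P₀) : F) = (s : F) * (h : F) := rfl
      rw [e, v.ord_mul hs' h0']
      have := hh v hv
      omega
  · rintro (rfl | hf)
    · exact ⟨0, Ideal.zero_mem _, mul_zero _⟩
    · by_cases f0 : f = 0
      · exact ⟨0, Ideal.zero_mem _, by rw [f0, mul_zero]⟩
      have f0' : (f : F) ≠ 0 := fun e => f0 (Subtype.ext e)
      have hord : ∀ v : Place K F, v.ord ((f : F) * (s : F)⁻¹) = v.ord (f : F) - v.ord (s : F) := by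
        intro v
        rw [v.ord_mul f0' (inv_ne_zero hs'), v.ord_inv]
        ring
      have hmem : (f : F) * (s : F)⁻¹ ∈ Aff P₀ := by
        rw [mem_Aff_iff]
        intro v hv
        rw [hord]
        have h1 := hf v hv
        have h2 : 0 ≤ divE E v := (divE_nonneg P₀ E) v
        omega
      refine ⟨⟨_, hmem⟩, ?_, ?_⟩
      · rw [ideals_mem_idl_iff_ord]
        right
        intro v hv
        show divE E v ≤ v.ord ((f : F) * (s : F)⁻¹)
        rw [hord]
        have h1 := hf v hv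
        omega
      · apply Subtype.ext
        show (s : F) * ((f : F) * (s : F)⁻¹) = f
        field_simp

/-- there is an element of `(s) · I(E)` with the exact order at a given place -/
theorem ideals_exists_mem_ord_eq (s : Aff P₀) (hs : s ≠ 0) (E : Finset (Pts P₀))
    (v₀ : Place K F) (hv₀ : v₀ ≠ P₀) :
    ∃ f : Aff P₀, f ≠ 0 ∧ f ∈ Ideal.span {s} * idl E ∧
      v₀.ord (f : F) = v₀.ord (s : F) + divE E v₀ := by
  have hs' : (s : F) ≠ 0 := fun h => hs (Subtype.ext h)
  obtain ⟨Ds, -, hDs⟩ := exists_isDivOf (K := K) (s : F) hs'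
  set Dd : Divisor K F := Ds + divE E with hDd
  have hDdv : ∀ v : Place K F, Dd v = v.ord (s : F) + divE E v := by
    intro v
    rw [hDd, Finsupp.add_apply, hDs]
  set n : ℕ := ((h1Bound K F : ℤ) + 1 + Divisor.degree Dd).toNat with hn
  have hdeg : (h1Bound K F : ℤ) + 1 ≤ Divisor.degree (n • pt P₀ - Dd) := by
    rw [map_sub, map_nsmul, degree_pt]
    have := Int.self_le_toNat ((h1Bound K F : ℤ) + 1 + Divisor.degree Dd)
    rw [← hn] at this
    simp only [nsmul_eq_mul, mul_one]
    omega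
  obtain ⟨f, hfL, hf0, hford⟩ :=
    Fermat.Agent.S17.F.exists_mem_L_forall_ord_eq (n • pt P₀ - Dd) {v₀} hdeg
  have hval : ∀ v : Place K F, v ≠ P₀ → -(n • pt P₀ - Dd) v = v.ord (s : F) + divE E v := by
    intro v hv
    rw [Finsupp.sub_apply, Finsupp.smul_apply, pt_apply_of_ne (Ne.symm hv), smul_zero, hDdv]
    ring
  have hle : ∀ v : Place K F, v ≠ P₀ → v.ord (s : F) + divE E v ≤ v.ord f := by
    intro v hv
    rcases (mem_riemannRochSpace_iff.mp hfL) v with h0 | h1
    · exact absurd h0 hf0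
    · rwa [hval v hv] at h1
  have hmem : f ∈ Aff P₀ := by
    rw [mem_Aff_iff]
    intro v hv
    have h1 := hle v hv
    have h2 : 0 ≤ divE E v := (divE_nonneg P₀ E) v
    have h3 := mem_Aff_iff.mp s.2 v hv
    omega
  refine ⟨⟨f, hmem⟩, fun e => hf0 (congrArg Subtype.val e), ?_, ?_⟩
  · rw [mem_span_mul_idl_iff P₀ s hs]
    exact Or.inr hle
  · show v₀.ord f = _
    rw [hford v₀ (Finset.mem_singleton_self _), hval v₀ hv₀]

theorem ideals_le_of_le (s s' : Aff P₀) (hs : s ≠ 0) (hs' : s' ≠ 0) (E E' : Finset (Pts P₀))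
    (h : Ideal.span {s'} * idl E ≤ Ideal.span {s} * idl E') (v : Place K F) (hv : v ≠ P₀) :
    v.ord (s : F) + divE E' v ≤ v.ord (s' : F) + divE E v := by
  obtain ⟨f, hf0, hf, hford⟩ := ideals_exists_mem_ord_eq P₀ s' hs' E v hv
  have h1 := h hf
  rw [mem_span_mul_idl_iff P₀ s hs] at h1
  rcases h1 with h1 | h1
  · exact absurd h1 hf0
  · rw [← hford]
    exact h1 v hv

theorem span_mul_idl_eq_iff (s s' : Aff P₀) (hs : s ≠ 0) (hs' : s' ≠ 0) (E E' : Finset (Pts P₀)) :
    Ideal.span {s'} * idl E = Ideal.span {s} * idl E' ↔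
      ∀ v : Place K F, v ≠ P₀ → v.ord (s' : F) + divE E v = v.ord (s : F) + divE E' v := by
  constructor
  · intro h v hv
    exact le_antisymm (ideals_le_of_le P₀ s' s hs' hs E' E h.ge v hv)
      (ideals_le_of_le P₀ s s' hs hs' E E' h.le v hv)
  · intro h
    ext f
    rw [mem_span_mul_idl_iff P₀ s' hs', mem_span_mul_idl_iff P₀ s hs]
    refine or_congr Iff.rfl (forall_congr' fun v => forall_congr' fun hv => ?_)
    rw [h v hv]

omit [NonConst K F] in
/-- a divisor of degree `0` supported at one place is `0` there -/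
theorem ideals_apply_eq_zero_of_degree (X : Divisor K F) (hX : ∀ v : Place K F, v ≠ P₀ → X v = 0)
    (hdeg : Divisor.degree X = 0) : X P₀ = 0 := by
  have e : X = Finsupp.single P₀ (X P₀) := by
    ext v
    by_cases hv : v = P₀
    · subst hv
      rw [Finsupp.single_eq_same]
    · rw [hX v hv, Finsupp.single_eq_of_ne hv]
  rw [e, degree_eq_sum, Finsupp.sum_single_index rfl] at hdeg
  exact hdeg

theorem span_mul_idl_eq_iff_isDivOf (s s' : Aff P₀) (hs : s ≠ 0) (hs' : s' ≠ 0)
    (E E' : Finset (Pts P₀)) :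
    Ideal.span {s'} * idl E = Ideal.span {s} * idl E' ↔
      IsDivOf ((divE E' - E'.card • pt P₀) - (divE E - E.card • pt P₀)) ((s' : F) / (s : F)) := by
  have hsF : (s : F) ≠ 0 := fun h => hs (Subtype.ext h)
  have hsF' : (s' : F) ≠ 0 := fun h => hs' (Subtype.ext h)
  have hg : (s' : F) / (s : F) ≠ 0 := div_ne_zero hsF' hsF
  have hord : ∀ v : Place K F, v.ord ((s' : F) / (s : F)) = v.ord (s' : F) - v.ord (s : F) := by
    intro v
    rw [div_eq_mul_inv, v.ord_mul hsF' (inv_ne_zero hsF), v.ord_inv]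
    ring
  set D : Divisor K F := (divE E' - E'.card • pt P₀) - (divE E - E.card • pt P₀) with hD
  have hDv : ∀ v : Place K F, v ≠ P₀ → D v = divE E' v - divE E v := by
    intro v hv
    rw [hD]
    simp only [Finsupp.sub_apply, Finsupp.smul_apply, pt_apply_of_ne (Ne.symm hv), smul_zero,
      sub_zero]
  have hDdeg : Divisor.degree D = 0 := by
    rw [hD]
    simp only [map_sub, map_nsmul, degree_pt, degree_divE]
    simp
  rw [span_mul_idl_eq_iff P₀ s s' hs hs']
  constructor
  · intro h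
    obtain ⟨Dg, hDg⟩ := exists_isDivOf (K := K) _ hg
    have hoff : ∀ v : Place K F, v ≠ P₀ → (D - Dg) v = 0 := by
      intro v hv
      rw [Finsupp.sub_apply, hDv v hv, hDg.2 v, hord]
      have := h v hv
      omega
    have h0 := ideals_apply_eq_zero_of_degree P₀ (D - Dg) hoff (by rw [map_sub, hDdeg, hDg.degree,
      sub_zero])
    refine ⟨hg, fun v => ?_⟩
    by_cases hv : v = P₀
    · subst hv
      rw [Finsupp.sub_apply, hDg.2] at h0
      omega
    · have := hoff v hv
      rw [Finsupp.sub_apply, hDg.2] at this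
      omega
  · rintro ⟨-, h⟩ v hv
    have h1 := h v
    rw [hDv v hv, hord] at h1
    omega

end Abstract

end Fermat.Agent.S17.H.Glue
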