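import Fermat.Agent.S17.H.Glue.Defs

/-!
# S17, route H, block GLUE, block `Rat` (owner helper79)

`C.IsRat f ↔ IsFix N f` for a `WCurve` on `AN N` whose basis is fixed by the Galois group.
-/

set_option autoImplicit false

noncomputable section

open scoped Classical

namespace Fermat.Agent.S17.H.Glue

open AlgebraicCurve Fermat.Agent.S24.FF Fermat.Agent.S27 Fermat.Agent.S17

section Modular

open ModularCurve Fermat.Agent.S24 Fermat.Agent.GAL.E Fermat.Agent.S17.W

private theorem Rat.isGalois_rat : IsGalois ℚ Kbar := by
  have h : (DivisionRing.toRatAlgebra : Algebra ℚ (AlgebraicClosure ℚ)) =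
      AlgebraicClosure.instAlgebra ℚ := Subsingleton.elim _ _
  have : IsAlgClosure ℚ (AlgebraicClosure ℚ) := by
    rw [h]
    infer_instance
  infer_instance

variable (N : ℕ) [NeZero N]

/-- a linear combination of the basis, inside the function field -/
private theorem Rat.coe_linearCombination (C : WCurve (AN N)) (c : ℕ →₀ Kbar) :
    ((Finsupp.linearCombination Kbar C.b c : AN N) : FN N) =
      ∑ i ∈ c.support, algebraMap Kbar (FN N) (c i) * (C.b i : FN N) := by
  rw [Finsupp.linearCombination_apply, Finsupp.sum, ← Subalgebra.coe_val, map_sum]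
  refine Finset.sum_congr rfl fun i _ => ?_
  rw [Subalgebra.coe_val, Subalgebra.coe_smul, Algebra.smul_def]

/-- the Galois group acts on the coordinates -/
private theorem Rat.galF_linearCombination (C : WCurve (AN N)) (hC : ∀ i, IsFix N (C.b i : FN N))
    (σ : GQ) (c : ℕ →₀ Kbar) :
    galF N σ ((Finsupp.linearCombination Kbar C.b c : AN N) : FN N) =
      ((Finsupp.linearCombination Kbar C.b (c.mapRange σ (map_zero σ)) : AN N) : FN N) := by
  rw [Rat.coe_linearCombination, Rat.coe_linearCombination, map_sum,
    Finsupp.support_mapRange_of_injective (map_zero σ) c σ.injective]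
  refine Finset.sum_congr rfl fun i _ => ?_
  rw [map_mul, galF_algebraMap, hC i σ, Finsupp.mapRange_apply]

theorem isRat_iff (C : WCurve (AN N)) (hC : ∀ i, IsFix N (C.b i : FN N)) (f : AN N) :
    C.IsRat f ↔ IsFix N (f : FN N) := by
  have hf : Finsupp.linearCombination Kbar C.b (C.b.repr f) = f := C.b.linearCombination_repr f
  constructor
  · intro h σ
    have h1 : (C.b.repr f).mapRange σ (map_zero σ) = C.b.repr f := by
      ext i
      obtain ⟨q, hq⟩ := h i
      rw [Finsupp.mapRange_apply, ← hq]
      exact σ.commutes q
    have h2 := Rat.galF_linearCombination N C hC σ (C.b.repr f)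
    rwa [h1, hf] at h2
  · intro h i
    have := Rat.isGalois_rat
    apply (InfiniteGalois.mem_range_algebraMap_iff_fixed (k := ℚ) (K := Kbar) _).mpr
    intro σ
    have h2 := Rat.galF_linearCombination N C hC σ (C.b.repr f)
    rw [hf, h σ] at h2
    have h3 : f = Finsupp.linearCombination Kbar C.b ((C.b.repr f).mapRange σ (map_zero σ)) :=
      Subtype.ext h2
    have h4 := congrArg (fun g => C.b.repr g i) h3
    simp only [Module.Basis.repr_linearCombination, Finsupp.mapRange_apply] at h4
    exact h4.symm

end Modular

end Fermat.Agent.S17.H.Glue
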