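import Fermat.Agent.S17.H.Glue.Points
import Fermat.Agent.S27.WRR2
import Fermat.Agent.S27.Cls

/-!
# S17, route H, block GLUE, task `DivE` (owner helper163)

Bookkeeping for the reduced effective divisor `divE E` of a finite set of points.
Uses the nodes `placeOf_injective`, `placeOf_ne`, `placeOf_ptOf` of block `Points`.
-/

set_option autoImplicit false
set_option linter.unusedSectionVars false

noncomputable section

open scoped Classical

namespace Fermat.Agent.S17.H.Glue

open AlgebraicCurve Fermat.Agent.S24.FF Fermat.Agent.S27 Fermat.Agent.S17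

section Abstract

variable {K F : Type*} [Field K] [Field F] [Algebra K F] [IsAlgClosed K] [CharZero K] [IsFF1 K F]
  [NonConst K F] (P₀ : Place K F)

theorem divE_apply (E : Finset (Pts P₀)) (v : Place K F) :
    divE E v = if ∃ P ∈ E, placeOf P = v then 1 else 0 := by
  rw [divE, Finsupp.finsetSum_apply]
  simp only [pt_apply]
  split_ifs with h
  · obtain ⟨P, hP, rfl⟩ := h
    rw [Finset.sum_eq_single P]
    · rw [if_pos rfl]
    · intro Q _ hQ
      rw [if_neg]
      exact fun h => hQ (placeOf_injective P₀ h)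
    · exact fun h => absurd hP h
  · refine Finset.sum_eq_zero fun P hP => ?_
    rw [if_neg]
    exact fun hv => h ⟨P, hP, hv⟩

theorem divE_base (E : Finset (Pts P₀)) : divE E P₀ = 0 := by
  rw [divE_apply, if_neg]
  rintro ⟨P, -, hP⟩
  exact placeOf_ne P₀ P hP

theorem divE_nonneg (E : Finset (Pts P₀)) : 0 ≤ divE E := by
  intro v
  rw [divE_apply]
  split_ifs <;> simp

theorem degree_divE (E : Finset (Pts P₀)) : Divisor.degree (divE E) = E.card := by
  rw [divE, map_sum]
  simp only [degree_pt]
  simp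

theorem divE_union (E E' : Finset (Pts P₀)) (h : Disjoint E E') :
    divE (E ∪ E') = divE E + divE E' := by
  rw [divE, divE, divE, Finset.sum_union h]

private theorem mem_iff_divE (E : Finset (Pts P₀)) (P : Pts P₀) :
    P ∈ E ↔ divE E (placeOf P) = 1 := by
  rw [divE_apply]
  constructor
  · intro h
    rw [if_pos ⟨P, h, rfl⟩]
  · intro h
    by_contra hP
    rw [if_neg] at h
    · exact zero_ne_one h
    · rintro ⟨Q, hQ, hQP⟩
      exact hP (placeOf_injective P₀ hQP ▸ hQ)

theorem divE_injective : Function.Injective (divE : Finset (Pts P₀) → Divisor K F) := by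
  intro E E' h
  ext P
  rw [mem_iff_divE, mem_iff_divE, h]

theorem exists_divE_eq (D : Divisor K F) (hD : ∀ v, D v = 0 ∨ D v = 1) (h0 : D P₀ = 0) :
    ∃ E : Finset (Pts P₀), divE E = D := by
  have hne : ∀ v ∈ D.support, v ≠ P₀ := by
    rintro v hv rfl
    exact (Finsupp.mem_support_iff.mp hv) h0
  refine ⟨D.support.attach.image (fun v => ptOf P₀ v.1 (hne v.1 v.2)), ?_⟩
  ext v
  rw [divE_apply]
  rcases hD v with hv | hv
  · rw [hv, if_neg]
    rintro ⟨P, hP, hPv⟩
    obtain ⟨w, -, rfl⟩ := Finset.mem_image.mp hP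
    rw [placeOf_ptOf] at hPv
    exact (Finsupp.mem_support_iff.mp w.2) (hPv ▸ hv)
  · have hvs : v ∈ D.support := Finsupp.mem_support_iff.mpr (by rw [hv]; exact one_ne_zero)
    rw [hv, if_pos]
    exact ⟨ptOf P₀ v (hne v hvs), Finset.mem_image.mpr ⟨⟨v, hvs⟩, Finset.mem_attach _ _, rfl⟩,
      placeOf_ptOf P₀ v _⟩

end Abstract

end Fermat.Agent.S17.H.Glue
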