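import Fermat.Agent.S17.H.Glue.Dedekind
import Fermat.Agent.S17.F.Basic
import Fermat.Agent.S17.F.Avoid
import Fermat.Agent.S17.W.FixedDiv
import Fermat.Agent.S17.W.OpenStab
import Fermat.Agent.S27.FibRam
import Fermat.Agent.S27.H.Rationality
import Fermat.Agent.S17.H.Glue.Basic
import Fermat.Agent.S24.FFDict

/-!
# S17, route H, block GLUE / `Points`: the `K`-points of `Aff P₀` are the places `≠ P₀`
(owner helper247)
-/

set_option autoImplicit false

noncomputable section

open scoped Classical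

namespace Fermat.Agent.S17.H.Glue

open AlgebraicCurve Fermat.Agent.S24.FF Fermat.Agent.S27 Fermat.Agent.S17

section Abstract

variable {K F : Type*} [Field K] [Field F] [Algebra K F] [IsAlgClosed K] [CharZero K] [IsFF1 K F]
  [NonConst K F] (P₀ : Place K F)

/-! ### Block `Points` -/

theorem exists_ptOf_eq (P : Pts P₀) : ∃ v : Place K F, ∃ hv : v ≠ P₀, ptOf P₀ v hv = P := by
  have hD := isDedekindDomain_Aff P₀
  have hFr := isFractionRing_Aff P₀
  obtain ⟨t, ht, htr⟩ := exists_transcendental P₀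
  have hsurj : Function.Surjective (P : Aff P₀ →+* K) := fun c =>
    ⟨algebraMap K (Aff P₀) c, P.commutes c⟩
  have hmax : (RingHom.ker (P : Aff P₀ →+* K)).IsMaximal := RingHom.ker_isMaximal_of_surjective _ hsurj
  have hne : RingHom.ker (P : Aff P₀ →+* K) ≠ ⊥ := by
    intro hbot
    have hmem : (⟨t, ht⟩ : Aff P₀) - algebraMap K (Aff P₀) (P ⟨t, ht⟩) ∈
        RingHom.ker (P : Aff P₀ →+* K) := by
      rw [RingHom.mem_ker]
      show P _ = 0
      rw [map_sub, P.commutes]
      simp
    rw [hbot, Ideal.mem_bot, sub_eq_zero] at hmem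
    apply htr
    have h2 : t = algebraMap K F (P ⟨t, ht⟩) := congrArg Subtype.val hmem
    rw [h2]
    exact isAlgebraic_algebraMap _
  let w : IsDedekindDomain.HeightOneSpectrum (Aff P₀) := ⟨_, hmax.isPrime, hne⟩
  let v : Place K F := Place.ofHeightOneSpectrum (K := K) w
  have hmemv : ∀ b : Aff P₀, algebraMap (Aff P₀) F b ∈ v.toValuationSubring :=
    algebraMap_mem_ofHeightOneSpectrum w
  have hw : primeOfPlace v hmemv = w := (placeEquiv K F (Aff P₀)).right_inv w
  have hv : v ≠ P₀ := by
    intro h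
    have h1 := ord_neg_of_transcendental P₀ ht htr
    have h2 := ord_nonneg_of_mem v (hmemv ⟨t, ht⟩)
    rw [h] at h2
    exact absurd h2 (not_le.mpr h1)
  refine ⟨v, hv, AlgHom.ext fun f => ?_⟩
  rw [ptOf_apply]
  apply ev_eq_of_isVal
  have hmem : f - algebraMap K (Aff P₀) (P f) ∈ (primeOfPlace v hmemv).asIdeal := by
    rw [hw]
    show _ ∈ RingHom.ker (P : Aff P₀ →+* K)
    rw [RingHom.mem_ker]
    show P _ = 0
    rw [map_sub, P.commutes]
    simp
  rw [mem_primeOfPlace_iff] at hmem
  rcases hmem with h | h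
  · left
    exact congrArg Subtype.val (sub_eq_zero.mp h)
  · right
    exact h

theorem ptOf_injective {v w : Place K F} (hv : v ≠ P₀) (hw : w ≠ P₀)
    (h : ptOf P₀ v hv = ptOf P₀ w hw) : v = w := by
  have hD := isDedekindDomain_Aff P₀
  have hFr := isFractionRing_Aff P₀
  have hmemv : ∀ b : Aff P₀, algebraMap (Aff P₀) F b ∈ v.toValuationSubring := fun b => b.2 v hv
  have hmemw : ∀ b : Aff P₀, algebraMap (Aff P₀) F b ∈ w.toValuationSubring := fun b => b.2 w hw
  have key : ∀ (u : Place K F) (hu : u ≠ P₀)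
      (hmemu : ∀ b : Aff P₀, algebraMap (Aff P₀) F b ∈ u.toValuationSubring) (b : Aff P₀),
      b ∈ (primeOfPlace u hmemu).asIdeal ↔ ptOf P₀ u hu b = 0 := by
    intro u hu hmemu b
    rw [mem_primeOfPlace_iff, ptOf_apply, ev_eq_zero_iff (mem_Aff_iff.mp b.2 u hu)]
    constructor
    · rintro (h | h)
      · exact Or.inl (congrArg Subtype.val h)
      · exact Or.inr h
    · rintro (h | h)
      · exact Or.inl (Subtype.ext h)
      · exact Or.inr h
  have hprime : primeOfPlace v hmemv = primeOfPlace w hmemw := by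
    apply IsDedekindDomain.HeightOneSpectrum.ext
    ext b
    rw [key v hv, key w hw, h]
  rw [← ofHeightOneSpectrum_primeOfPlace v hmemv, hprime, ofHeightOneSpectrum_primeOfPlace]

theorem placeOf_ne (P : Pts P₀) : placeOf P ≠ P₀ := by
  have h := exists_ptOf_eq P₀ P
  unfold placeOf
  rw [dif_pos h]
  exact h.choose_spec.choose

theorem ev_placeOf (P : Pts P₀) (f : Aff P₀) : ev (placeOf P) (f : F) = P f := by
  have h := exists_ptOf_eq P₀ P
  have h2 := h.choose_spec.choose_spec
  unfold placeOf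
  rw [dif_pos h]
  conv_rhs => rw [← h2]
  rfl

theorem placeOf_ptOf (v : Place K F) (hv : v ≠ P₀) : placeOf (ptOf P₀ v hv) = v := by
  have h := exists_ptOf_eq P₀ (ptOf P₀ v hv)
  unfold placeOf
  rw [dif_pos h]
  exact ptOf_injective P₀ h.choose_spec.choose hv h.choose_spec.choose_spec

theorem placeOf_injective : Function.Injective (placeOf : Pts P₀ → Place K F) := by
  intro P Q h
  apply AlgHom.ext
  intro f
  rw [← ev_placeOf P₀ P f, ← ev_placeOf P₀ Q f, h]

end Abstract

end Fermat.Agent.S17.H.Glue
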