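import Fermat.Agent.S17.H.Glue.Gal
import Fermat.Agent.S17.F.Basic
import Fermat.Agent.S17.F.Avoid
import Fermat.Agent.S17.W.FixedDiv
import Fermat.Agent.S17.W.OpenStab
import Fermat.Agent.S27.FibRam
import Fermat.Agent.S27.H.Rationality
import Fermat.Agent.S17.H.Glue.Points
import Fermat.Agent.S17.H.Glue.DivE

/-!
# S17, route H, block GLUE, block `Stable` (owner helper229)

Galois-stable finite sets of points of the abstract curve `=` Galois-fixed reduced divisors.
-/

set_option autoImplicit false

noncomputable section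

open scoped Classical

namespace Fermat.Agent.S17.H.Glue

open AlgebraicCurve Fermat.Agent.S24.FF Fermat.Agent.S27 Fermat.Agent.S17

section Modular

open ModularCurve Fermat.Agent.S24 Fermat.Agent.GAL.E Fermat.Agent.S17.W

variable (N : ℕ) [NeZero N]

/-! ### Block `Stable` -/

private theorem stable_ev_smul (C : WCurve (AN N)) (hC : ∀ i, IsFix N (C.b i : FN N)) (σ : GQ)
    (P : Pt (AN N)) (i : ℕ) :
    ev (gal N σ • placeOf P) ((C.b i : AN N) : FN N) = σ (P (C.b i)) := by
  have h1 : ev (gal N σ • placeOf P) (galF N σ ((C.b i : AN N) : FN N))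
      = σ (ev (placeOf P) ((C.b i : AN N) : FN N)) := ev_gal N σ (placeOf P) _
  rw [hC i σ] at h1
  rw [h1]
  exact congrArg σ (ev_placeOf (cusp N) P (C.b i))

private theorem stable_smul_ne_cusp (σ : GQ) (P : Pt (AN N)) :
    gal N σ • placeOf P ≠ cusp N := by
  intro h
  have h1 : gal N σ • placeOf P = gal N σ • cusp N := by rw [h, smul_cusp]
  exact placeOf_ne (cusp N) P (MulAction.injective (gal N σ) h1)

theorem placeOf_eq_gal_smul_iff (C : WCurve (AN N)) (hC : ∀ i, IsFix N (C.b i : FN N)) (σ : GQ)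
    (P P' : Pt (AN N)) :
    (∀ i, P' (C.b i) = σ (P (C.b i))) ↔ placeOf P' = gal N σ • placeOf P := by
  constructor
  · intro h
    have hv := stable_smul_ne_cusp N σ P
    have heq : ptOf (cusp N) (gal N σ • placeOf P) hv = P' := by
      apply AlgHom.toLinearMap_injective
      refine C.b.ext fun i => ?_
      show ev (gal N σ • placeOf P) ((C.b i : AN N) : FN N) = P' (C.b i)
      rw [stable_ev_smul N C hC, h i]
    rw [← heq]
    exact placeOf_ptOf (cusp N) _ hv
  · intro h i
    rw [← stable_ev_smul N C hC, ← h]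
    exact (ev_placeOf (cusp N) P' (C.b i)).symm

private theorem stable_divE_eq_one_iff (E : Finset (Pt (AN N))) (v : Place Kbar (FN N)) :
    divE E v = 1 ↔ ∃ P ∈ E, placeOf P = v := by
  rw [divE_apply]
  split_ifs with h
  · exact ⟨fun _ => h, fun _ => rfl⟩
  · exact ⟨fun h0 => absurd h0 (by norm_num), fun h1 => absurd h1 h⟩

theorem galStable_iff (C : WCurve (AN N)) (hC : ∀ i, IsFix N (C.b i : FN N))
    (E : Finset (Pt (AN N))) : C.GalStable E ↔ IsFixD N (divE E) := by
  constructor
  · intro h σ
    have hst : ∀ (τ : GQ) (w : Place Kbar (FN N)), (∃ P ∈ E, placeOf P = w) →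
        ∃ P ∈ E, placeOf P = gal N τ • w := by
      rintro τ _ ⟨P, hP, rfl⟩
      obtain ⟨P', hP', h'⟩ := h τ P hP
      exact ⟨P', hP', (placeOf_eq_gal_smul_iff N C hC τ P P').1 h'⟩
    ext w
    rw [SemilinearAut.divisor_smul_apply, divE_apply, divE_apply]
    have hiff : (∃ P ∈ E, placeOf P = (gal N σ)⁻¹ • w) ↔ ∃ P ∈ E, placeOf P = w := by
      constructor
      · intro h1
        have := hst σ _ h1
        rwa [smul_inv_smul] at this
      · intro h1
        have := hst σ⁻¹ _ h1
        have hinv : gal N σ⁻¹ = (gal N σ)⁻¹ :=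
          map_inv (arithmeticGalois (modularFunctionFieldFull N)) σ
        rwa [hinv] at this
    simp only [hiff]
  · intro h σ P hP
    have h1 : divE E (gal N σ • placeOf P) = 1 := by
      have h2 : (gal N σ • divE E) (gal N σ • placeOf P) = divE E (placeOf P) :=
        SemilinearAut.divisor_smul_apply_smul _ _ _
      rw [h σ] at h2
      rw [h2]
      exact (stable_divE_eq_one_iff N E _).2 ⟨P, hP, rfl⟩
    obtain ⟨P', hP', h'⟩ := (stable_divE_eq_one_iff N E _).1 h1
    exact ⟨P', hP', (placeOf_eq_gal_smul_iff N C hC σ P P').2 h'⟩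

end Modular

end Fermat.Agent.S17.H.Glue
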