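import Fermat.Agent.S17.H.Glue.DivE
import Fermat.Agent.S17.H.Glue.FixFun
import Fermat.Agent.S17.H.Glue.Fraction
import Fermat.Agent.S17.H.Glue.Ideals
import Fermat.Agent.S17.H.Glue.Rat
import Fermat.Agent.S17.H.Glue.Stable
import Fermat.Agent.S17.F.Basic
import Fermat.Agent.S17.F.Avoid
import Fermat.Agent.S17.W.FixedDiv
import Fermat.Agent.S17.W.OpenStab
import Fermat.Agent.S27.FibRam
import Fermat.Agent.S27.H.Rationality
import Fermat.Agent.S17.H.Glue.Cl

/-!
# S17, route H, block GLUE: `ClIff` (task 1717)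

`cl N E = cl N E'` iff the ideals of `E`, `E'` differ by a rational fraction.
-/

set_option autoImplicit false

noncomputable section

open scoped Classical

namespace Fermat.Agent.S17.H.Glue

open AlgebraicCurve Fermat.Agent.S24.FF Fermat.Agent.S27 Fermat.Agent.S17

section Modular

open ModularCurve Fermat.Agent.S24 Fermat.Agent.GAL.E Fermat.Agent.S17.W

variable (N : ℕ) [NeZero N]

/-- the divisor `E - |E| ∞` has degree zero -/
theorem clIff_degree (E : Finset (Pt (AN N))) :
    Divisor.degree (divE E - E.card • pt (cusp N)) = 0 := by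
  rw [map_sub, degree_divE (cusp N) E, map_nsmul, degree_pt]
  simp

/-- the divisor `E - |E| ∞` is fixed when `E` is -/
theorem clIff_isFixD (E : Finset (Pt (AN N))) (h : IsFixD N (divE E)) :
    IsFixD N (divE E - E.card • pt (cusp N)) := by
  intro σ
  have h1 : gal N σ • pt (cusp N) = pt (cusp N) := by
    rw [pt, SemilinearAut.smul_single]
    congr 1
    exact smul_cusp N σ
  rw [smul_sub, h σ, smul_comm, h1]

theorem cl_eq_iff (C : WCurve (AN N)) (hC : ∀ i, IsFix N (C.b i : FN N))
    (E E' : Finset (Pt (AN N))) (hE : C.GalStable E) (hE' : C.GalStable E') :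
    cl N E = cl N E' ↔ ∃ s s' : AN N, C.IsRat s ∧ C.IsRat s' ∧ s ≠ 0 ∧ s' ≠ 0 ∧
      Ideal.span {s'} * idealOf E = Ideal.span {s} * idealOf E' := by
  have hF : IsFixD N (divE E) := (galStable_iff N C hC E).mp hE
  have hF' : IsFixD N (divE E') := (galStable_iff N C hC E').mp hE'
  have key : cl N E = cl N E' ↔
      ∃ f : FN N, IsDivOf ((divE E' - E'.card • pt (cusp N)) - (divE E - E.card • pt (cusp N))) f := by
    rw [Subtype.ext_iff, coe_cl N E hF, coe_cl N E' hF', clsE, clsE,
      cls_eq_cls_iff (clIff_degree N E) (clIff_degree N E'), ← mem_principal_iff]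
    exact ⟨fun h => h.symm, fun h => LinEq.symm h⟩
  rw [key]
  constructor
  · rintro ⟨f, hf⟩
    have hfix : IsFixD N ((divE E' - E'.card • pt (cusp N)) - (divE E - E.card • pt (cusp N))) := by
      intro σ
      rw [smul_sub, clIff_isFixD N E' hF' σ, clIff_isFixD N E hF σ]
    obtain ⟨f', hf'fix, hf'⟩ := exists_isFix_of_isFixD N _ hfix f hf
    obtain ⟨s, s', hs, hs', hs0, hs'0, hfs⟩ := exists_isFix_fraction N f' hf'fix hf'.1
    refine ⟨s, s', (isRat_iff N C hC s).mpr hs, (isRat_iff N C hC s').mpr hs', hs0, hs'0, ?_⟩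
    rw [idealOf_eq_idl, idealOf_eq_idl,
      span_mul_idl_eq_iff_isDivOf (cusp N) s s' hs0 hs'0 E E', ← hfs]
    exact hf'
  · rintro ⟨s, s', -, -, hs0, hs'0, h⟩
    rw [idealOf_eq_idl, idealOf_eq_idl,
      span_mul_idl_eq_iff_isDivOf (cusp N) s s' hs0 hs'0 E E'] at h
    exact ⟨_, h⟩

end Modular

end Fermat.Agent.S17.H.Glue
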