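import Mathlib

/-!
# S17, route H, block GLUE, `Nth` : enumeration of a cofinite set of natural numbers.
Owner: helper240.
-/

set_option autoImplicit false

noncomputable section

open scoped Classical

namespace Fermat.Agent.S17.H.Glue

/-! ### Block `Nth` (Mathlib only) -/

theorem exists_nth_eq_add (S : ℕ → Prop) (hS : {n | ¬ S n}.Finite) :
    ∃ g i₀ : ℕ, ∀ i, i₀ ≤ i → Nat.nth S i = i + g := by
  obtain ⟨M, hM⟩ := hS.bddAbove
  have hS' : ∀ n, M + 1 ≤ n → S n := by
    intro n hn
    by_contra h
    have := hM h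
    omega
  have hcount : ∀ k, Nat.count S (M + 1 + k) = Nat.count S (M + 1) + k := by
    intro k
    induction k with
    | zero => rfl
    | succ k ih =>
      rw [← add_assoc, Nat.count_succ, ih, if_pos (hS' _ (by omega))]
      omega
  have hle : Nat.count S (M + 1) ≤ M + 1 := Nat.count_le S
  refine ⟨M + 1 - Nat.count S (M + 1), Nat.count S (M + 1), fun i hi => ?_⟩
  obtain ⟨k, rfl⟩ := Nat.exists_eq_add_of_le hi
  rw [← hcount k, Nat.nth_count (hS' _ (by omega)), hcount k]
  omega

end Fermat.Agent.S17.H.Glue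

end
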