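import Fermat.Agent.S17.H.Glue.Basic

/-!
# S17, route H, block GLUE: bases of `Aff P₀` adapted to the pole order at `P₀`
(block `OrdBasis`; proofs helper61)
-/

set_option autoImplicit false
set_option linter.unusedSectionVars false

noncomputable section

open scoped Classical

namespace Fermat.Agent.S17.H.Glue

open AlgebraicCurve Fermat.Agent.S24.FF Fermat.Agent.S27 Fermat.Agent.S17

variable {K F : Type*} [Field K] [Field F] [Algebra K F] [IsAlgClosed K] [CharZero K] [IsFF1 K F]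
  [NonConst K F] (P₀ : Place K F)

theorem ordBasis_ord_smul {c : K} (hc : c ≠ 0) {x : F} (hx : x ≠ 0) :
    P₀.ord (c • x) = P₀.ord x := by
  rw [Algebra.smul_def, P₀.ord_mul ((map_ne_zero _).mpr hc) hx, ord_algebraMap, zero_add]

/-- The functions of order `> m` at `P₀` (and `0`). -/
def ordBasisGT (m : ℤ) : Submodule K F where
  carrier := {x | x = 0 ∨ m < P₀.ord x}
  zero_mem' := Or.inl rfl
  add_mem' := by
    rintro x y (rfl | hx) (rfl | hy)
    · exact Or.inl (add_zero _)
    · rw [zero_add]; exact Or.inr hy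
    · rw [add_zero]; exact Or.inr hx
    · by_cases h0 : x + y = 0
      · exact Or.inl h0
      · exact Or.inr (lt_of_lt_of_le (lt_min hx hy) (min_ord_le_ord_add P₀ h0))
  smul_mem' := by
    rintro c x (rfl | hx)
    · exact Or.inl (smul_zero _)
    · by_cases hc : c = 0
      · exact Or.inl (by rw [hc, zero_smul])
      · by_cases hx0 : x = 0
        · exact Or.inl (by rw [hx0, smul_zero])
        · exact Or.inr (by rw [ordBasis_ord_smul P₀ hc hx0]; exact hx)

theorem mem_ordBasisGT {m : ℤ} {x : F} : x ∈ ordBasisGT P₀ m ↔ x = 0 ∨ m < P₀.ord x := Iff.rfl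

/-- leading coefficients -/
theorem ordBasis_exists_lead {f h : F} (hf : f ≠ 0) (hh : h ≠ 0) (e : P₀.ord f = P₀.ord h) :
    ∃ c : K, f - c • h ∈ ordBasisGT P₀ (P₀.ord h) := by
  have hu : P₀.ord (f / h) = 0 := by
    rw [div_eq_mul_inv, P₀.ord_mul hf (inv_ne_zero hh), P₀.ord_inv, e, add_neg_cancel]
  refine ⟨ev P₀ (f / h), ?_⟩
  have hfac : f - ev P₀ (f / h) • h = (f / h - algebraMap K F (ev P₀ (f / h))) * h := by
    rw [Algebra.smul_def, sub_mul, div_mul_cancel₀ _ hh]
  rw [mem_ordBasisGT, hfac]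
  by_cases h0 : f / h - algebraMap K F (ev P₀ (f / h)) = 0
  · left
    rw [h0, zero_mul]
  · right
    rcases isVal_ev (v := P₀) (f := f / h) hu.ge with h1 | h1
    · exact absurd (sub_eq_zero.mpr h1) h0
    · rw [P₀.ord_mul h0 hh]
      omega

theorem linearIndependent_of_ord (b : ℕ → Aff P₀) (ρ : ℕ → ℕ) (hρ : StrictMono ρ)
    (hb0 : ∀ i, b i ≠ 0) (hb : ∀ i, P₀.ord (b i : F) = -(ρ i : ℤ)) : LinearIndependent K b := by
  have hb0' : ∀ i, (b i : F) ≠ 0 := fun i h => hb0 i (Subtype.ext h)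
  refine LinearIndependent.of_comp (Aff P₀).val.toLinearMap ?_
  rw [linearIndependent_iff']
  intro s g hsum i hi
  by_contra hgi
  have hne : (s.filter fun j => g j ≠ 0).Nonempty := ⟨i, Finset.mem_filter.mpr ⟨hi, hgi⟩⟩
  set i₀ := (s.filter fun j => g j ≠ 0).max' hne with hi₀
  have hi₀mem : i₀ ∈ s.filter fun j => g j ≠ 0 := Finset.max'_mem _ _
  have hgi₀ : g i₀ ≠ 0 := (Finset.mem_filter.mp hi₀mem).2
  have hsum' : ∑ j ∈ s.filter (fun j => g j ≠ 0), g j • (b j : F) = 0 := by
    rw [Finset.sum_filter_of_ne]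
    · exact hsum
    · intro j _ hj hg0
      exact hj (by rw [hg0, zero_smul])
  rw [← Finset.add_sum_erase _ _ hi₀mem] at hsum'
  have hrest : ∑ j ∈ (s.filter fun j => g j ≠ 0).erase i₀, g j • (b j : F) ∈
      ordBasisGT P₀ (-(ρ i₀ : ℤ)) := by
    refine Submodule.sum_mem _ fun j hj => Submodule.smul_mem _ _ ?_
    right
    have hj' := Finset.mem_erase.mp hj
    have hlt : j < i₀ := lt_of_le_of_ne (Finset.le_max' _ j hj'.2) hj'.1
    have := hρ hlt
    rw [hb j]
    omega
  have hlead : g i₀ • (b i₀ : F) ∈ ordBasisGT P₀ (-(ρ i₀ : ℤ)) := by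
    rw [eq_neg_of_add_eq_zero_left hsum']
    exact Submodule.neg_mem _ hrest
  rcases hlead with h | h
  · exact (smul_ne_zero hgi₀ (hb0' i₀)) h
  · rw [ordBasis_ord_smul P₀ hgi₀ (hb0' i₀), hb i₀] at h
    exact lt_irrefl _ h

theorem mem_span_of_ord (b : ℕ → Aff P₀) (ρ : ℕ → ℕ) (hρ : StrictMono ρ)
    (hb0 : ∀ i, b i ≠ 0) (hb : ∀ i, P₀.ord (b i : F) = -(ρ i : ℤ))
    (hsurj : ∀ n, IsPole P₀ n → ∃ i, ρ i = n) (k : ℕ) (f : Aff P₀)
    (hf : f = 0 ∨ -(ρ k : ℤ) < P₀.ord (f : F)) :
    f ∈ Submodule.span K (b '' {l | l < k}) := by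
  have hb0' : ∀ i, (b i : F) ≠ 0 := fun i h => hb0 i (Subtype.ext h)
  -- the pole order of a nonzero element is some `ρ i`
  have hidx : ∀ f : Aff P₀, f ≠ 0 → ∃ i, P₀.ord (f : F) = -(ρ i : ℤ) := by
    intro f hf0
    have hf0' : (f : F) ≠ 0 := fun h => hf0 (Subtype.ext h)
    have hle := ord_le_zero P₀ f.2 hf0'
    obtain ⟨n, hn⟩ := Int.eq_ofNat_of_zero_le (neg_nonneg.mpr hle)
    obtain ⟨i, hi⟩ := hsurj n ⟨f, f.2, hf0', by omega⟩
    exact ⟨i, by rw [hi]; omega⟩
  induction k generalizing f with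
  | zero =>
    by_cases hf0 : f = 0
    · rw [hf0]; exact Submodule.zero_mem _
    · exfalso
      obtain ⟨i, hi⟩ := hidx f hf0
      rcases hf with h | h
      · exact hf0 h
      · rw [hi] at h
        have h1 : ρ i < ρ 0 := by omega
        exact absurd (hρ.lt_iff_lt.mp h1) (Nat.not_lt_zero i)
  | succ k ih =>
    have hmono : Submodule.span K (b '' {l | l < k}) ≤ Submodule.span K (b '' {l | l < k + 1}) :=
      Submodule.span_mono (Set.image_mono fun l (hl : l < k) => Nat.lt_succ_of_lt hl)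
    by_cases hf0 : f = 0
    · rw [hf0]; exact Submodule.zero_mem _
    · obtain ⟨i, hi⟩ := hidx f hf0
      have hf0' : (f : F) ≠ 0 := fun h => hf0 (Subtype.ext h)
      have hik : i < k + 1 := by
        rcases hf with h | h
        · exact absurd h hf0
        · rw [hi] at h
          have h1 : ρ i < ρ (k + 1) := by omega
          exact hρ.lt_iff_lt.mp h1
      rcases Nat.lt_succ_iff_lt_or_eq.mp hik with hlt | rfl
      · refine hmono (ih f (Or.inr ?_))
        have := hρ hlt
        rw [hi]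
        omega
      · obtain ⟨c, hc⟩ := ordBasis_exists_lead P₀ hf0' (hb0' i) (hi.trans (hb i).symm)
        have h1 : f - c • b i ∈ Submodule.span K (b '' {l | l < i}) := by
          refine ih (f - c • b i) ?_
          rcases hc with h | h
          · left
            exact Subtype.ext h
          · right
            rw [hb i] at h
            exact h
        have h2 : b i ∈ Submodule.span K (b '' {l | l < i + 1}) :=
          Submodule.subset_span ⟨i, Nat.lt_succ_self i, rfl⟩
        have h3 : f = (f - c • b i) + c • b i := by abel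
        rw [h3]
        exact Submodule.add_mem _ (hmono h1) (Submodule.smul_mem _ _ h2)

theorem span_eq_top_of_ord (b : ℕ → Aff P₀) (ρ : ℕ → ℕ) (hρ : StrictMono ρ)
    (hb0 : ∀ i, b i ≠ 0) (hb : ∀ i, P₀.ord (b i : F) = -(ρ i : ℤ))
    (hsurj : ∀ n, IsPole P₀ n → ∃ i, ρ i = n) : Submodule.span K (Set.range b) = ⊤ := by
  rw [eq_top_iff]
  intro f _
  have hk : -(ρ ((-P₀.ord (f : F)).toNat + 1) : ℤ) < P₀.ord (f : F) := by
    have h1 := hρ.le_apply (x := (-P₀.ord (f : F)).toNat + 1)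
    have h2 := Int.self_le_toNat (-P₀.ord (f : F))
    omega
  have h := mem_span_of_ord P₀ b ρ hρ hb0 hb hsurj _ f (Or.inr hk)
  exact Submodule.span_mono (Set.image_subset_range _ _) h

end Fermat.Agent.S17.H.Glue
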