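import Fermat.Agent.S17.H.Glue.Avg
import Fermat.Agent.S17.H.Glue.Nth
import Fermat.Agent.S17.H.Glue.OrdBasis

/-!
# S17, route H, block GLUE, node `Curve`: the `WCurve` structure on `AN N`

`ρ := Nat.nth (IsPole (cusp N))`, `b i` := a Galois-fixed function regular off the cusp with
`q`-expansion `q^{-ρ i} + ...`.
-/

set_option autoImplicit false

noncomputable section

open scoped Classical

namespace Fermat.Agent.S17.H.Glue

open AlgebraicCurve Fermat.Agent.S24.FF Fermat.Agent.S27 Fermat.Agent.S17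

section Modular

open ModularCurve Fermat.Agent.S24 Fermat.Agent.GAL.E Fermat.Agent.S17.W

/-- product of two monic Laurent series -/
private theorem curve_monic_mul {x y : LaurentSeries Kbar} {a b : ℤ} (hx : x.order = a)
    (hx1 : x.coeff a = 1) (hy : y.order = b) (hy1 : y.coeff b = 1) :
    (x * y).order = a + b ∧ (x * y).coeff (a + b) = 1 := by
  have h1 : x.leadingCoeff = 1 := by rw [HahnSeries.leadingCoeff_eq, hx, hx1]
  have h2 : y.leadingCoeff = 1 := by rw [HahnSeries.leadingCoeff_eq, hy, hy1]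
  constructor
  · rw [HahnSeries.order_mul_of_ne_zero (by rw [h1, h2]; simp), hx, hy]
  · rw [← hx, ← hy, HahnSeries.coeff_mul_order_add_order, h1, h2, one_mul]

/-- the difference of two monic Laurent series of the same order -/
private theorem curve_monic_sub {x y : LaurentSeries Kbar} {a : ℤ} (hx : x.order = a)
    (hx1 : x.coeff a = 1) (hy : y.order = a) (hy1 : y.coeff a = 1) (h : x - y ≠ 0) :
    a < (x - y).order := by
  by_contra hlt
  rw [not_lt] at hlt
  apply HahnSeries.coeff_order_eq_zero.not.2 h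
  rcases hlt.lt_or_eq with h1 | h1
  · rw [HahnSeries.coeff_sub, HahnSeries.coeff_eq_zero_of_lt_order (hx ▸ h1),
      HahnSeries.coeff_eq_zero_of_lt_order (hy ▸ h1), sub_zero]
  · rw [h1, HahnSeries.coeff_sub, hx1, hy1, sub_self]

private theorem curve_mem_range (c : Kbar) (h : ∀ σ : GQ, σ c = c) :
    c ∈ Set.range (algebraMap ℚ Kbar) := by
  have h0 : (DivisionRing.toRatAlgebra : Algebra ℚ (AlgebraicClosure ℚ)) =
      AlgebraicClosure.instAlgebra ℚ := Subsingleton.elim _ _
  have h1 : IsAlgClosure ℚ (AlgebraicClosure ℚ) := by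
    rw [h0]
    infer_instance
  have h2 : IsGalois ℚ Kbar := inferInstance
  exact IntermediateField.mem_bot.mp ((InfiniteGalois.mem_bot_iff_fixed c).mpr h)

variable (N : ℕ) [NeZero N]

private theorem curve_isPole_zero : IsPole (cusp N) 0 :=
  ⟨1, (Aff (cusp N)).one_mem, one_ne_zero, by simp⟩

theorem exists_wcurve : ∃ C : WCurve (AN N), ∀ i, IsFix N (C.b i : FN N) := by
  -- the pole numbers
  have hcof : {n | ¬ IsPole (cusp N) n}.Finite := by
    obtain ⟨n₀, hn₀⟩ := exists_isPole_of_le (cusp N)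
    refine (Finset.range n₀).finite_toSet.subset fun n hn => ?_
    rw [Finset.coe_range, Set.mem_Iio]
    by_contra h
    exact hn (hn₀ n (not_lt.1 h))
  have hinf : {n | IsPole (cusp N) n}.Infinite := by
    intro hfin
    apply Set.infinite_univ (α := ℕ)
    refine (hfin.union hcof).subset fun n _ => ?_
    by_cases h : IsPole (cusp N) n
    · exact Or.inl h
    · exact Or.inr h
  set ρ : ℕ → ℕ := Nat.nth (IsPole (cusp N)) with hρdef
  have hρ : StrictMono ρ := Nat.nth_strictMono hinf
  have hρ0 : ρ 0 = 0 := Nat.nth_zero_of_zero (curve_isPole_zero N)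
  have hsurj : ∀ n, IsPole (cusp N) n → ∃ i, ρ i = n := fun n hn => ⟨_, Nat.nth_count hn⟩
  obtain ⟨g, i₀, hlarge⟩ := exists_nth_eq_add (IsPole (cusp N)) hcof
  -- the functions
  have hex : ∀ i, ∃ f : AN N, IsFix N (f : FN N) ∧
      ((f : FN N) : LaurentSeries Kbar).order = -(ρ i : ℤ) ∧
      ((f : FN N) : LaurentSeries Kbar).coeff (-(ρ i : ℤ)) = 1 ∧ (i = 0 → f = 1) := by
    intro i
    by_cases hi : i = 0
    · subst hi
      refine ⟨1, fun σ => map_one _, ?_, ?_, fun _ => rfl⟩
      · show (1 : LaurentSeries Kbar).order = _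
        rw [hρ0, HahnSeries.order_one]
        simp
      · show (1 : LaurentSeries Kbar).coeff _ = 1
        rw [hρ0, HahnSeries.coeff_one]
        simp
    · obtain ⟨f, hf, h1, h2, h3⟩ := exists_isFix_monic N (ρ i) (Nat.nth_mem_of_infinite hinf i)
      exact ⟨⟨f, hf⟩, h1, h2, h3, fun h => absurd h hi⟩
  choose b hfix hord hcoef hb1 using hex
  have hb0' : ∀ i, (b i : FN N) ≠ 0 := by
    intro i h
    have := hcoef i
    rw [h] at this
    simp at this
  have hb0 : ∀ i, b i ≠ 0 := fun i h => hb0' i (by rw [h]; rfl)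
  have hb : ∀ i, (cusp N).ord (b i : FN N) = -(ρ i : ℤ) := fun i => by
    rw [ord_cusp N _ (hb0' i), hord]
  have hli : LinearIndependent Kbar b := linearIndependent_of_ord (cusp N) b ρ hρ hb0 hb
  have hsp : Submodule.span Kbar (Set.range b) = ⊤ :=
    span_eq_top_of_ord (cusp N) b ρ hρ hb0 hb hsurj
  let B : Module.Basis ℕ Kbar (AN N) := Module.Basis.mk hli hsp.ge
  have hB : ∀ i, B i = b i := fun i => Module.Basis.mk_apply hli hsp.ge i
  refine ⟨⟨B, ρ, g, hρ, hρ0, (hB 0).trans (hb1 0 rfl), ⟨i₀, hlarge⟩, ?_⟩, fun i => ?_⟩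
  swap
  · show IsFix N (B i : FN N)
    rw [hB]
    exact hfix i
  intro i j
  simp only [hB]
  -- the product
  obtain ⟨hm1, hm2⟩ := curve_monic_mul (hord i) (hcoef i) (hord j) (hcoef j)
  have hmne : (b i : FN N) * (b j : FN N) ≠ 0 := mul_ne_zero (hb0' i) (hb0' j)
  have hpole : IsPole (cusp N) (ρ i + ρ j) := by
    refine ⟨(b i : FN N) * (b j : FN N), (Aff (cusp N)).mul_mem (b i).2 (b j).2, hmne, ?_⟩
    rw [ord_cusp N _ hmne]
    show (((b i : FN N) : LaurentSeries Kbar) * ((b j : FN N) : LaurentSeries Kbar)).order = _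
    rw [hm1]
    push_cast
    ring
  obtain ⟨k, hk⟩ := hsurj _ hpole
  have hk' : -(ρ i : ℤ) + -(ρ j : ℤ) = -(ρ k : ℤ) := by
    rw [hk]
    push_cast
    ring
  rw [hk'] at hm1 hm2
  have hD : b i * b j - b k = 0 ∨ -(ρ k : ℤ) < (cusp N).ord ((b i * b j - b k : AN N) : FN N) := by
    by_cases h0 : b i * b j - b k = 0
    · exact Or.inl h0
    · right
      have h0' : ((b i * b j - b k : AN N) : FN N) ≠ 0 := fun h => h0 (Subtype.ext h)
      rw [ord_cusp N _ h0']
      refine curve_monic_sub hm1 hm2 (hord k) (hcoef k) fun h => h0' (Subtype.ext h)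
  have hmem := mem_span_of_ord (cusp N) b ρ hρ hb0 hb hsurj k _ hD
  have hset : {l | l < k} = ((Finset.range k : Finset ℕ) : Set ℕ) := by
    rw [Finset.coe_range]
    rfl
  rw [hset, Submodule.mem_span_image_finset_iff_exists_fun'] at hmem
  obtain ⟨c, hc⟩ := hmem
  -- the coordinates are fixed by Galois
  have hcfix : ∀ l ∈ Finset.range k, ∀ σ : GQ, σ (c l) = c l := by
    intro l hl σ
    have h1 : ∑ l ∈ Finset.range k, σ (c l) • b l = b i * b j - b k := by
      apply Subtype.ext
      have h2 : galF N σ ((b i * b j - b k : AN N) : FN N) = ((b i * b j - b k : AN N) : FN N) := by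
        show galF N σ ((b i : FN N) * (b j : FN N) - (b k : FN N)) = _
        rw [map_sub, map_mul, hfix i σ, hfix j σ, hfix k σ]
        rfl
      rw [← h2, ← hc]
      rw [AddSubmonoidClass.coe_finsetSum, AddSubmonoidClass.coe_finsetSum, map_sum]
      refine Finset.sum_congr rfl fun l _ => ?_
      show algebraMap Kbar (FN N) (σ (c l)) * (b l : FN N) =
        galF N σ (algebraMap Kbar (FN N) (c l) * (b l : FN N))
      rw [map_mul, galF_algebraMap, hfix l σ]
    have h3 : ∑ l ∈ Finset.range k, (σ (c l) - c l) • b l = 0 := by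
      simp only [sub_smul]
      rw [Finset.sum_sub_distrib, h1, hc, sub_self]
    exact sub_eq_zero.1 (linearIndependent_iff'.1 hli _ _ h3 l hl)
  have hrat : ∀ l, ∃ q : ℚ, l ∈ Finset.range k → algebraMap ℚ Kbar q = c l := by
    intro l
    by_cases hl : l ∈ Finset.range k
    · obtain ⟨q, hq⟩ := curve_mem_range (c l) (hcfix l hl)
      exact ⟨q, fun _ => hq⟩
    · exact ⟨0, fun h => absurd h hl⟩
  choose q hq using hrat
  refine ⟨k, q, hk, ?_⟩
  rw [Finset.sum_congr rfl fun l hl => by rw [hq l hl], hc]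
  ring

end Modular

end Fermat.Agent.S17.H.Glue
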