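import Fermat.Agent.S17.H.Glue.Defs
import Fermat.Agent.S27.FibRam
import Fermat.Agent.S27.H.Genus

/-!
# S17, route H, block GLUE, `Pencil`: abstract Bertini for a pencil (helper11)
-/

set_option autoImplicit false

noncomputable section

open scoped Classical

namespace Fermat.Agent.S17.H.Glue

open AlgebraicCurve Fermat.Agent.S24.FF Fermat.Agent.S27 Fermat.Agent.S17

section Abstract

variable {K F : Type*} [Field K] [Field F] [Algebra K F] [IsAlgClosed K] [CharZero K] [IsFF1 K F]
  [NonConst K F] (P₀ : Place K F)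

/-- the quotient of two sections without common zero of a divisor of positive degree is not
constant -/
private theorem pencil_transcendental (D : Divisor K F) (hD : 1 ≤ Divisor.degree D) (s₁ s₂ : F)
    (h₁0 : s₁ ≠ 0) (h₂0 : s₂ ≠ 0)
    (hp : ∀ P : Place K F, P.ord s₁ = - D P ∨ P.ord s₂ = - D P) : Transcendental K (s₂ / s₁) := by
  rcases exists_const_or_transcendental (K := K) (s₂ / s₁) with ⟨c, hc⟩ | h
  · exfalso
    have hs : s₂ = algebraMap K F c * s₁ := by
      rw [← hc, div_mul_cancel₀ _ h₁0]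
    have hc0 : algebraMap K F c ≠ 0 := by
      intro h0
      rw [h0, zero_mul] at hs
      exact h₂0 hs
    have hord : ∀ P : Place K F, D P = P.ord s₁⁻¹ := by
      intro P
      have h2 : P.ord s₂ = P.ord s₁ := by
        rw [hs, P.ord_mul hc0 h₁0, ord_algebraMap, zero_add]
      rw [P.ord_inv]
      rcases hp P with h | h <;> omega
    have := Fermat.Agent.S27.H.degree_eq_zero_of_forall_ord hord
    omega
  · exact h

theorem finite_bad_pencil (D : Divisor K F) (hD : 1 ≤ Divisor.degree D) (s₁ s₂ : F)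
    (h₁ : s₁ ∈ riemannRochSpace D) (h₂ : s₂ ∈ riemannRochSpace D) (h₁0 : s₁ ≠ 0) (h₂0 : s₂ ≠ 0)
    (hp : ∀ P : Place K F, P.ord s₁ = - D P ∨ P.ord s₂ = - D P) (T : Finset (Place K F)) :
    {c : K | ¬ (s₂ - algebraMap K F c * s₁ ≠ 0 ∧ ∀ v : Place K F,
      v.ord (s₂ - algebraMap K F c * s₁) + D v = 0 ∨
        (v.ord (s₂ - algebraMap K F c * s₁) + D v = 1 ∧ v ∉ T))}.Finite := by
  set ψ : F := s₂ / s₁ with hψ
  have htr : Transcendental K ψ := pencil_transcendental D hD s₁ s₂ h₁0 h₂0 hp
  rw [mem_riemannRochSpace_iff] at h₁ h₂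
  have h₁' : ∀ v : Place K F, - D v ≤ v.ord s₁ := fun v => (h₁ v).resolve_left h₁0
  have h₂' : ∀ v : Place K F, - D v ≤ v.ord s₂ := fun v => (h₂ v).resolve_left h₂0
  apply ((finite_ramified_values ψ htr).union
    ((T : Set (Place K F)).toFinite.image (fun v => ev v ψ))).subset
  intro c hc
  by_contra hcon
  rw [Set.mem_union, not_or] at hcon
  obtain ⟨hA, hB⟩ := hcon
  apply hc
  have hψc : ψ - algebraMap K F c ≠ 0 := by
    intro h0
    apply htr
    rw [sub_eq_zero.mp h0]
    exact isAlgebraic_algebraMap c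
  have hfac : s₂ - algebraMap K F c * s₁ = s₁ * (ψ - algebraMap K F c) := by
    rw [hψ]; field_simp
  refine ⟨by rw [hfac]; exact mul_ne_zero h₁0 hψc, fun v => ?_⟩
  by_cases hv : v.ord s₁ = - D v
  · -- `ψ` is regular at `v`
    have hψ0 : 0 ≤ v.ord ψ := by
      rw [hψ, div_eq_mul_inv, v.ord_mul h₂0 (inv_ne_zero h₁0), v.ord_inv]
      have := h₂' v
      omega
    have hge : 0 ≤ v.ord (ψ - algebraMap K F c) := by
      have h := min_ord_le_ord_add v (f := ψ) (g := -algebraMap K F c)
        (by rwa [← sub_eq_add_neg])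
      rw [ord_neg, ord_algebraMap, ← sub_eq_add_neg] at h
      exact le_trans (le_min hψ0 le_rfl) h
    have hle : v.ord (ψ - algebraMap K F c) ≤ 1 := by
      by_contra hlt
      exact hA ⟨v, not_le.mp hlt⟩
    have hsum : v.ord (s₂ - algebraMap K F c * s₁) + D v = v.ord (ψ - algebraMap K F c) := by
      rw [hfac, v.ord_mul h₁0 hψc, hv]; ring
    rw [hsum]
    rcases (by omega : v.ord (ψ - algebraMap K F c) = 0 ∨ v.ord (ψ - algebraMap K F c) = 1)
      with h | h
    · exact Or.inl h
    · refine Or.inr ⟨h, fun hvT => hB ⟨v, hvT, ?_⟩⟩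
      exact ev_eq_of_ord_sub_pos (by omega)
  · left
    have hv2 : v.ord s₂ = - D v := (hp v).resolve_left hv
    have hv1 : - D v < v.ord s₁ := lt_of_le_of_ne (h₁' v) (Ne.symm hv)
    rcases eq_or_ne c 0 with rfl | hc0
    · rw [map_zero, zero_mul, sub_zero, hv2]; ring
    · have hcF : algebraMap K F c ≠ 0 := by
        rw [Ne, map_eq_zero_iff _ (algebraMap K F).injective]
        exact hc0
      have h3 : v.ord (-(algebraMap K F c * s₁)) = v.ord s₁ := by
        rw [ord_neg, v.ord_mul hcF h₁0, ord_algebraMap, zero_add]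
      rw [sub_eq_add_neg, ord_add_eq_of_lt v h₂0 (by rw [h3, hv2]; exact hv1), hv2]
      ring

end Abstract

end Fermat.Agent.S17.H.Glue
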