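import Fermat.Agent.S17.H.Glue.Avoid
import Fermat.Agent.S17.H.Glue.Cl
import Fermat.Agent.S17.H.Glue.DivE
import Fermat.Agent.S17.H.Glue.Gal
import Fermat.Agent.S17.H.Glue.Pencil
import Fermat.Agent.S17.H.Glue.Stable
import Fermat.Agent.S17.F.Basic
import Fermat.Agent.S17.F.Avoid
import Fermat.Agent.S17.W.FixedDiv
import Fermat.Agent.S17.W.OpenStab
import Fermat.Agent.S27.FibRam
import Fermat.Agent.S27.H.Rationality

/-!
# S17, route H, block GLUE: the moving lemma (helper199)

Every class of the Mordell-Weil group is `[E - r ∞]` with `E` a reduced, Galois stable, effective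
divisor of degree `r` avoiding a given finite set, for every `r` large enough.
-/

set_option autoImplicit false

noncomputable section

open scoped Classical

namespace Fermat.Agent.S17.H.Glue

open AlgebraicCurve Fermat.Agent.S24.FF Fermat.Agent.S27 Fermat.Agent.S17

section Modular

open ModularCurve Fermat.Agent.S24 Fermat.Agent.GAL.E Fermat.Agent.S17.W

variable (N : ℕ) [NeZero N]

theorem moving (C : WCurve (AN N)) (hC : ∀ i, IsFix N (C.b i : FN N)) :
    ∃ r₀ : ℕ, ∀ r, r₀ ≤ r → ∀ (x : MW N) (T : Finset (Pt (AN N))),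
      ∃ E, C.GalStable E ∧ E.card = r ∧ Disjoint E T ∧ cl N E = x := by
  refine ⟨h1Bound Kbar (FN N) + 1, fun r hr x T => ?_⟩
  obtain ⟨D0, hD0x, hD0fix⟩ := W.exists_fixed_divisor N (x : JZero N) (fun σ => x.2 σ)
  have hD0deg : Divisor.degree (D0 : Divisor Kbar (FN N)) = 0 := D0.2
  set D : Divisor Kbar (FN N) := (D0 : Divisor Kbar (FN N)) + r • pt (cusp N) with hD
  have hptfix : ∀ σ : GQ, gal N σ • pt (cusp N) = pt (cusp N) := by
    intro σ
    rw [pt, SemilinearAut.smul_single, smul_cusp]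
  have hDfix : IsFixD N D := by
    intro σ
    rw [hD, smul_add, hD0fix σ, smul_comm, hptfix σ]
  have hDdeg : Divisor.degree D = r := by
    rw [hD, map_add, hD0deg, map_nsmul, degree_pt]
    simp
  obtain ⟨s₁, h₁, s₂, h₂, hf₁, hf₂, h₁0, h₂0, hp⟩ := exists_isFix_pencil N D hDfix
    (by rw [hDdeg]; exact_mod_cast hr)
  have hfin := finite_bad_pencil D (by rw [hDdeg]; exact_mod_cast (by omega : 1 ≤ r))
    s₁ s₂ h₁ h₂ h₁0 h₂0 hp (insert (cusp N) (T.image placeOf))
  obtain ⟨_, ⟨c, rfl⟩, hc⟩ :=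
    (Set.infinite_range_of_injective (algebraMap ℚ Kbar).injective).exists_notMem_finite hfin
  rw [Set.mem_ofPred_eq, not_not] at hc
  obtain ⟨hf0, hv⟩ := hc
  set f : FN N := s₂ - algebraMap Kbar (FN N) (algebraMap ℚ Kbar c) * s₁ with hf
  have hffix : IsFix N f := by
    intro σ
    rw [hf, map_sub, map_mul, galF_algebraMap, hf₁ σ, hf₂ σ, σ.commutes]
  obtain ⟨Df, hDf⟩ := exists_isDivOf (K := Kbar) f hf0
  have hDffix : IsFixD N Df := by
    intro σ
    have h1 := isDivOf_gal N σ hDf
    rw [hffix σ] at h1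
    ext v
    rw [h1.2 v, hDf.2 v]
  obtain ⟨E, hE⟩ := exists_divE_eq (cusp N) (D + Df)
    (by
      intro v
      rcases hv v with h | ⟨h, -⟩
      · left
        rw [Finsupp.add_apply, hDf.2 v]; omega
      · right
        rw [Finsupp.add_apply, hDf.2 v]; omega)
    (by
      rcases hv (cusp N) with h | ⟨-, h⟩
      · rw [Finsupp.add_apply, hDf.2]; omega
      · exact absurd (Finset.mem_insert_self _ _) h)
  have hEfix : IsFixD N (divE E) := by
    intro σ
    rw [hE, smul_add, hDfix σ, hDffix σ]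
  have hcard : E.card = r := by
    have h1 := degree_divE (cusp N) E
    rw [hE, map_add, hDdeg, hDf.degree, add_zero] at h1
    exact_mod_cast h1.symm
  refine ⟨E, (galStable_iff N C hC E).mpr hEfix, hcard, ?_, ?_⟩
  · rw [Finset.disjoint_left]
    intro P hPE hPT
    have h1 : divE E (placeOf P) = 1 := by
      rw [divE_apply, if_pos ⟨P, hPE, rfl⟩]
    rcases hv (placeOf P) with h | ⟨-, h⟩
    · rw [hE, Finsupp.add_apply, hDf.2] at h1
      omega
    · exact h (Finset.mem_insert_of_mem (Finset.mem_image_of_mem _ hPT))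
  · apply Subtype.ext
    rw [coe_cl N E hEfix, clsE, ← hD0x, ← cls_eq_mk hD0deg, hE, hcard]
    rw [cls_eq_cls_iff (by rw [map_sub, map_add, hDdeg, hDf.degree, map_nsmul, degree_pt]; simp)
      hD0deg, LinEq, mem_principal_iff]
    refine ⟨f, ?_⟩
    have : D + Df - r • pt (cusp N) - (D0 : Divisor Kbar (FN N)) = Df := by
      rw [hD]; abel
    rw [this]
    exact hDf

end Modular

end Fermat.Agent.S17.H.Glue
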