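import Fermat.Agent.S17.H.Glue.Dedekind
import Fermat.Agent.S17.H.Glue.Curve
import Fermat.Agent.S17.H.Glue.Stable
import Fermat.Agent.S17.H.Glue.Cl
import Fermat.Agent.S17.H.Glue.ClIff
import Fermat.Agent.S17.H.Glue.Moving

/-!
# S17, route H, block GLUE: the modular curve `X₀(N)` as an abstract `WCurve` (owner helper261)

`glue N` : the ring `AN N` of the functions on `X₀(N)` over `ℚ̄` regular outside the cusp `∞` is a
Dedekind domain carrying a `WCurve` structure (basis with rational `q`-expansions and strictly
increasing pole orders); Galois stable finite sets of points have classes in the Mordell-Weil group,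
additive on disjoint unions, equality of classes is detected by rational functions, and every class
is represented by a Galois stable reduced set of any large cardinality avoiding a given finite set.
-/

set_option autoImplicit false

noncomputable section

open scoped Classical

namespace Fermat.Agent.S17.H.Glue

open AlgebraicCurve Fermat.Agent.S24.FF Fermat.Agent.S27 Fermat.Agent.S17
open ModularCurve Fermat.Agent.S24 Fermat.Agent.GAL.E Fermat.Agent.S17.W

theorem glue (N : ℕ) [NeZero N] :
    ∃ (A : Type) (_ : CommRing A) (_ : Algebra Qb A) (_ : IsDedekindDomain A) (C : WCurve A)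
      (cl : Finset (Pt A) → MW N) (r₀ : ℕ),
      (∀ E E', C.GalStable E → C.GalStable E' → Disjoint E E' → cl (E ∪ E') = cl E + cl E') ∧
      (∀ E E', C.GalStable E → C.GalStable E' → (cl E = cl E' ↔
        ∃ s s' : A, C.IsRat s ∧ C.IsRat s' ∧ s ≠ 0 ∧ s' ≠ 0 ∧
          Ideal.span {s'} * idealOf E = Ideal.span {s} * idealOf E')) ∧
      (∀ r, r₀ ≤ r → ∀ (x : MW N) (T : Finset (Pt A)),
        ∃ E, C.GalStable E ∧ E.card = r ∧ Disjoint E T ∧ cl E = x) := by
  obtain ⟨C, hC⟩ := exists_wcurve N
  obtain ⟨r₀, hr₀⟩ := moving N C hC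
  refine ⟨AN N, inferInstance, inferInstance, isDedekindDomain_Aff (cusp N), C, cl N, r₀, ?_, ?_,
    hr₀⟩
  · intro E E' hE hE' hd
    exact cl_union N E E' ((galStable_iff N C hC E).mp hE) ((galStable_iff N C hC E').mp hE') hd
  · intro E E' hE hE'
    exact cl_eq_iff N C hC E E' hE hE'

end Fermat.Agent.S17.H.Glue
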