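import Fermat.Agent.S17.H.Glue.Gal
import Fermat.Agent.S17.F.Basic
import Fermat.Agent.S17.F.Avoid
import Fermat.Agent.S17.W.FixedDiv
import Fermat.Agent.S17.W.OpenStab
import Fermat.Agent.S27.FibRam
import Fermat.Agent.S27.H.Rationality

/-!
# S17, route H, block GLUE, node `Avg` (owner helper256)

`exists_isFix_monic`: every pole order at the cusp is realised by a Galois-fixed function regular
outside the cusp, with leading coefficient `1` (average over the finite Galois orbit).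
-/

set_option autoImplicit false

noncomputable section

open scoped Classical

namespace Fermat.Agent.S17.H.Glue

open AlgebraicCurve Fermat.Agent.S24.FF Fermat.Agent.S27 Fermat.Agent.S17

section Modular

open ModularCurve Fermat.Agent.S24 Fermat.Agent.GAL.E Fermat.Agent.S17.W

variable (N : ℕ) [NeZero N]

omit [NeZero N] in
private theorem avg_coeff_smul (c : Kbar) (f : FN N) (k : ℤ) :
    ((algebraMap Kbar (FN N) c * f : FN N) : LaurentSeries Kbar).coeff k
      = c * (f : LaurentSeries Kbar).coeff k :=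
  Formal.coeff_algebraMap_mul_laurent c (f : LaurentSeries Kbar) k

omit [NeZero N] in
private theorem avg_coeff_sum (O : Finset (FN N)) (k : ℤ) :
    ((∑ g ∈ O, g : FN N) : LaurentSeries Kbar).coeff k
      = ∑ g ∈ O, (g : LaurentSeries Kbar).coeff k := by
  have h1 : ((∑ g ∈ O, g : FN N) : LaurentSeries Kbar) = ∑ g ∈ O, (g : LaurentSeries Kbar) :=
    map_sum (modularFunctionFieldBar N).val _ _
  rw [h1, HahnSeries.coeff_sum]

theorem exists_isFix_monic (n : ℕ) (h : IsPole (cusp N) n) :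
    ∃ f ∈ Aff (cusp N), IsFix N f ∧ (f : LaurentSeries Kbar).order = -(n : ℤ) ∧
      (f : LaurentSeries Kbar).coeff (-(n : ℤ)) = 1 := by
  obtain ⟨f₀, hf₀A, hf₀0, hf₀ord⟩ := h
  rw [ord_cusp N f₀ hf₀0] at hf₀ord
  have hf₀' : (f₀ : LaurentSeries Kbar) ≠ 0 := fun h0 => hf₀0 (Subtype.ext h0)
  set c : Kbar := (f₀ : LaurentSeries Kbar).coeff (-(n : ℤ)) with hc
  have hc0 : c ≠ 0 := by
    rw [hc, ← hf₀ord]
    exact fun h0 => hf₀' (HahnSeries.coeff_order_eq_zero.mp h0)
  -- normalise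
  set f₁ : FN N := algebraMap Kbar (FN N) c⁻¹ * f₀ with hf₁
  have hf₁A : f₁ ∈ Aff (cusp N) := mul_mem ((Aff (cusp N)).algebraMap_mem c⁻¹) hf₀A
  have hf₁lt : ∀ k : ℤ, k < -(n : ℤ) → (f₁ : LaurentSeries Kbar).coeff k = 0 := by
    intro k hk
    rw [hf₁, avg_coeff_smul, HahnSeries.coeff_eq_zero_of_lt_order (by rw [hf₀ord]; exact hk),
      mul_zero]
  have hf₁n : (f₁ : LaurentSeries Kbar).coeff (-(n : ℤ)) = 1 := by
    rw [hf₁, avg_coeff_smul, ← hc, inv_mul_cancel₀ hc0]
  -- the orbit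
  set O : Finset (FN N) := (finite_orbit N f₁).toFinset with hO
  have hmemO : ∀ g : FN N, g ∈ O ↔ ∃ σ : GQ, galF N σ f₁ = g := by
    intro g
    rw [hO, Set.Finite.mem_toFinset, Set.mem_range]
  have hOne : O.Nonempty := ⟨f₁, (hmemO f₁).mpr ⟨1, galF_one N f₁⟩⟩
  have hm0 : (O.card : Kbar) ≠ 0 := by
    exact_mod_cast (Finset.card_pos.mpr hOne).ne'
  set f' : FN N := algebraMap Kbar (FN N) (O.card : Kbar)⁻¹ * ∑ g ∈ O, g with hf'
  have hcoeff : ∀ k : ℤ, (f' : LaurentSeries Kbar).coeff k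
      = (O.card : Kbar)⁻¹ * ∑ g ∈ O, (g : LaurentSeries Kbar).coeff k := by
    intro k
    rw [hf', avg_coeff_smul, avg_coeff_sum]
  have hlt : ∀ k : ℤ, k < -(n : ℤ) → (f' : LaurentSeries Kbar).coeff k = 0 := by
    intro k hk
    rw [hcoeff, Finset.sum_eq_zero, mul_zero]
    intro g hg
    obtain ⟨σ, rfl⟩ := (hmemO g).mp hg
    rw [coeff_galF, hf₁lt k hk, map_zero]
  have hn : (f' : LaurentSeries Kbar).coeff (-(n : ℤ)) = 1 := by
    rw [hcoeff, Finset.sum_congr rfl (g := fun _ => (1 : Kbar)), Finset.sum_const, nsmul_eq_mul,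
      mul_one, inv_mul_cancel₀ hm0]
    intro g hg
    obtain ⟨σ, rfl⟩ := (hmemO g).mp hg
    rw [coeff_galF, hf₁n, map_one]
  refine ⟨f', ?_, ?_, ?_, hn⟩
  · refine mul_mem ((Aff (cusp N)).algebraMap_mem _) (sum_mem fun g hg => ?_)
    obtain ⟨σ, rfl⟩ := (hmemO g).mp hg
    exact galF_mem_Aff N σ hf₁A
  · intro σ
    have himg : O.image (galF N σ) = O := by
      apply Finset.eq_of_subset_of_card_le
      · intro g hg
        obtain ⟨g', hg', rfl⟩ := Finset.mem_image.mp hg
        obtain ⟨τ, rfl⟩ := (hmemO g').mp hg'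
        exact (hmemO _).mpr ⟨σ * τ, galF_mul N σ τ f₁⟩
      · rw [Finset.card_image_of_injective _ (galF N σ).injective]
    have hsum : ∑ g ∈ O, galF N σ g = ∑ g ∈ O, g := by
      conv_rhs => rw [← himg]
      rw [Finset.sum_image (fun a _ b _ hab => (galF N σ).injective hab)]
    rw [hf', map_mul, galF_algebraMap, map_sum, hsum, map_inv₀, map_natCast]
  · have hf'0 : (f' : LaurentSeries Kbar) ≠ 0 := by
      intro h0
      rw [h0, HahnSeries.coeff_zero] at hn
      exact zero_ne_one hn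
    apply le_antisymm
    · exact HahnSeries.order_le_of_coeff_ne_zero (by rw [hn]; exact one_ne_zero)
    · by_contra hlt'
      rw [not_le] at hlt'
      exact hf'0 (HahnSeries.coeff_order_eq_zero.mp (hlt _ hlt'))

end Modular

end Fermat.Agent.S17.H.Glue
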