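import Fermat.Agent.S17.H.Glue.Gal
import Fermat.Agent.S17.F.Basic
import Fermat.Agent.S17.F.Avoid
import Fermat.Agent.S17.W.FixedDiv
import Fermat.Agent.S17.W.OpenStab
import Fermat.Agent.S27.FibRam
import Fermat.Agent.S27.H.Rationality

/-!
# S17, route H, block GLUE: `Descent` (Galois descent for `L(D)`, `D` fixed by the Galois group)
Owner: helper195.
-/

set_option autoImplicit false
set_option linter.unusedSectionVars false

noncomputable section

open scoped Classical

namespace Fermat.Agent.S17.H.Glue

open AlgebraicCurve Fermat.Agent.S24.FF Fermat.Agent.S27 Fermat.Agent.S17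

section Modular

open ModularCurve Fermat.Agent.S24 Fermat.Agent.GAL.E Fermat.Agent.S17.W

variable (N : ℕ) [NeZero N]

/-- finitely many coefficients of the `q`-expansion, as a linear map -/
def Descent.coords (s : Finset ℤ) : FN N →ₗ[Kbar] (s → Kbar) where
  toFun f n := (f : LaurentSeries Kbar).coeff n
  map_add' f g := by
    funext n
    rfl
  map_smul' x f := by
    funext n
    show ((x • f : FN N) : LaurentSeries Kbar).coeff n = x • (f : LaurentSeries Kbar).coeff n
    rw [IntermediateField.coe_smul, Algebra.smul_def, algebraMap_laurentSeries_eq_single,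
      HahnSeries.single_zero_mul_eq_smul, HahnSeries.coeff_smul]

theorem Descent.coords_apply (s : Finset ℤ) (f : FN N) (n : s) :
    Descent.coords N s f n = (f : LaurentSeries Kbar).coeff n := rfl

/-- an element of `L(D)` is determined by its coefficients in the range
`[-D(∞), deg D - D(∞)]` -/
theorem Descent.eq_zero_of_coords (D : Divisor Kbar (FN N)) (f : FN N)
    (hf : f ∈ riemannRochSpace D)
    (h : Descent.coords N (Finset.Icc (-(D (cusp N))) (Divisor.degree D - D (cusp N))) f = 0) :
    f = 0 := by
  by_contra hf0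
  have hf0' : (f : LaurentSeries Kbar) ≠ 0 := fun h0 => hf0 (Subtype.ext h0)
  have hord := W.ord_cusp N f hf0
  have hmem := mem_riemannRochSpace_iff.mp hf
  have hlow : -(D (cusp N)) ≤ (f : LaurentSeries Kbar).order := by
    rw [← hord]
    exact (hmem (cusp N)).resolve_left hf0
  by_cases hup : (f : LaurentSeries Kbar).order ≤ Divisor.degree D - D (cusp N)
  · have h1 := congrFun h ⟨(f : LaurentSeries Kbar).order, Finset.mem_Icc.2 ⟨hlow, hup⟩⟩
    rw [Descent.coords_apply] at h1
    exact hf0' (HahnSeries.coeff_order_eq_zero.mp h1)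
  · rw [not_le] at hup
    have hneg : Divisor.degree (D - Finsupp.single (cusp N) (Divisor.degree D + 1)) < 0 := by
      rw [map_sub, Riemann.degree_single_eq]
      omega
    have hbot := Riemann.L_eq_bot_of_degree_neg hneg
    have hf' : f ∈ riemannRochSpace (D - Finsupp.single (cusp N) (Divisor.degree D + 1)) := by
      rw [mem_riemannRochSpace_iff]
      intro v
      right
      rw [Finsupp.sub_apply, Finsupp.single_apply]
      split_ifs with hv
      · subst hv
        rw [hord]
        omega
      · rw [sub_zero]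
        exact (hmem v).resolve_left hf0
    rw [hbot, Submodule.mem_bot] at hf'
    exact hf0 hf'

/-! ### Block `Descent` -/

theorem L_le_span_isFix (D : Divisor Kbar (FN N)) (hD : IsFixD N D) :
    riemannRochSpace D ≤ Submodule.span Kbar {h | h ∈ riemannRochSpace D ∧ IsFix N h} := by
  intro f hf
  set s := Finset.Icc (-(D (cusp N))) (Divisor.degree D - D (cusp N)) with hs
  have hinj : ∀ g ∈ riemannRochSpace D, Descent.coords N s g = 0 → g = 0 :=
    fun g hg h => Descent.eq_zero_of_coords N D g hg h
  have hσ : ∀ (σ : GQ) (g : FN N),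
      Descent.coords N s (galF N σ g) = fun n => σ (Descent.coords N s g n) := by
    intro σ g
    funext n
    exact coeff_galF N σ g n
  have hstab : ∀ (σ : GQ) (g : FN N), g ∈ riemannRochSpace D → galF N σ g ∈ riemannRochSpace D := by
    intro σ g hg
    have := galF_mem_L N σ hg
    rwa [hD σ] at this
  have hW' : ∀ (σ : Kbar ≃ₐ[ℚ] Kbar) (w : s → Kbar),
      w ∈ (riemannRochSpace D).map (Descent.coords N s) →
        (fun i => σ (w i)) ∈ (riemannRochSpace D).map (Descent.coords N s) := by
    rintro σ _ ⟨g, hg, rfl⟩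
    exact ⟨galF N σ g, hstab σ g hg, hσ σ g⟩
  have key := Fermat.Agent.S27.H.mem_span_rational (K := ℚ) (K' := Kbar)
    (fun x hx => mem_range_of_forall_fixed x hx)
    ((riemannRochSpace D).map (Descent.coords N s)) hW' (Descent.coords N s f) ⟨f, hf, rfl⟩
  -- rational vectors come from fixed elements
  have hle : Submodule.span Kbar {u | u ∈ (riemannRochSpace D).map (Descent.coords N s) ∧
        ∀ j, u j ∈ Set.range (algebraMap ℚ Kbar)} ≤
      (Submodule.span Kbar {h | h ∈ riemannRochSpace D ∧ IsFix N h}).map (Descent.coords N s) := by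
    rw [Submodule.span_le]
    rintro _ ⟨⟨g, hg, rfl⟩, hrat⟩
    refine ⟨g, Submodule.subset_span ⟨hg, fun σ => ?_⟩, rfl⟩
    have h1 : Descent.coords N s (galF N σ g - g) = 0 := by
      rw [map_sub, hσ, sub_eq_zero]
      funext n
      obtain ⟨r, hr⟩ := hrat n
      rw [← hr]
      exact σ.commutes r
    exact sub_eq_zero.1 (hinj _ (sub_mem (hstab σ g hg) hg) h1)
  obtain ⟨f', hf', hff'⟩ := hle key
  have hf'L : f' ∈ riemannRochSpace D := (Submodule.span_le.2 fun h hh => hh.1) hf'
  have h0 : f' - f = 0 := hinj _ (sub_mem hf'L hf) (by rw [map_sub, hff', sub_self])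
  rw [← sub_eq_zero.1 h0]
  exact hf'

end Modular

end Fermat.Agent.S17.H.Glue
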