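import Fermat.Agent.S17.H.Glue.Defs
import Fermat.Agent.S17.H.Glue.Descent
import Fermat.Agent.S17.F.Basic

/-!
# S17, route H, block GLUE, block `Avoid` (helper190)

Rational (= Galois fixed) elements of `L(D)` avoiding finitely many `ℚ̄`-subspaces; a base point
free pencil of rational elements.
-/

set_option autoImplicit false

noncomputable section

open scoped Classical

namespace Fermat.Agent.S17.H.Glue

open AlgebraicCurve Fermat.Agent.S24.FF Fermat.Agent.S27 Fermat.Agent.S17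

section Modular

open ModularCurve Fermat.Agent.S24 Fermat.Agent.GAL.E Fermat.Agent.S17.W

variable (N : ℕ) [NeZero N]

/-- the `ℚ`-subspace of the Galois fixed elements of `L(D)`. -/
def Avoid.fixL (D : Divisor Kbar (FN N)) : Submodule ℚ (FN N) where
  carrier := {f | f ∈ riemannRochSpace D ∧ IsFix N f}
  add_mem' := fun {a b} ha hb =>
    ⟨add_mem ha.1 hb.1, fun σ => by rw [map_add, ha.2 σ, hb.2 σ]⟩
  zero_mem' := ⟨zero_mem _, fun σ => map_zero _⟩
  smul_mem' := fun c f hf =>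
    ⟨((riemannRochSpace D).restrictScalars ℚ).smul_mem c hf.1,
      fun σ => by rw [map_rat_smul, hf.2 σ]⟩

set_option synthInstance.maxHeartbeats 400000 in
theorem exists_isFix_avoid (D : Divisor Kbar (FN N)) (hD : IsFixD N D)
    (S : Finset (Submodule Kbar (FN N))) (hS : ∀ W ∈ S, ¬ riemannRochSpace D ≤ W) :
    ∃ f ∈ riemannRochSpace D, IsFix N f ∧ ∀ W ∈ S, f ∉ W := by
  set V : Submodule ℚ (FN N) := Avoid.fixL N D with hV
  let φ : Submodule Kbar (FN N) → Submodule ℚ V :=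
    fun W => Submodule.comap V.subtype (Submodule.restrictScalars ℚ W)
  set s : Finset (Submodule ℚ V) := Finset.image φ S with hs
  have htop : (⊤ : Submodule ℚ V) ∉ s := by
    rw [hs, Finset.mem_image]
    rintro ⟨W, hW, h⟩
    apply hS W hW
    refine (L_le_span_isFix N D hD).trans (Submodule.span_le.mpr ?_)
    intro f hf
    have : (⟨f, hf⟩ : V) ∈ φ W := by
      rw [h]; exact Submodule.mem_top
    exact this
  have hne := Subspace.biUnion_ne_univ_of_top_notMem htop
  rw [Set.ne_univ_iff_exists_notMem] at hne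
  obtain ⟨f, hf⟩ := hne
  simp only [Set.mem_iUnion, not_exists] at hf
  refine ⟨f, f.2.1, f.2.2, fun W hW hfW => ?_⟩
  exact hf (φ W) (by rw [hs]; exact Finset.mem_image_of_mem _ hW) hfW

theorem exists_isFix_pencil (D : Divisor Kbar (FN N)) (hD : IsFixD N D)
    (hdeg : (h1Bound Kbar (FN N) : ℤ) + 1 ≤ Divisor.degree D) :
    ∃ s₁ ∈ riemannRochSpace D, ∃ s₂ ∈ riemannRochSpace D, IsFix N s₁ ∧ IsFix N s₂ ∧ s₁ ≠ 0 ∧
      s₂ ≠ 0 ∧ ∀ P : Place Kbar (FN N), P.ord s₁ = - D P ∨ P.ord s₂ = - D P := by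
  have hbot : ¬ riemannRochSpace D ≤ (⊥ : Submodule Kbar (FN N)) := by
    intro hle
    obtain ⟨f, hf, hf0, -⟩ := F.exists_mem_L_ord_eq D (cusp N) hdeg
    exact hf0 ((Submodule.mem_bot _).mp (hle hf))
  have hpt : ∀ P : Place Kbar (FN N), ¬ riemannRochSpace D ≤ riemannRochSpace (D - pt P) := by
    intro P hle
    obtain ⟨f, hf, hf0, hord⟩ := F.exists_mem_L_ord_eq D P hdeg
    rcases ((F.mem_L_sub_pt_iff D P f).mp (hle hf)).2 with h0 | hlt
    · exact hf0 h0
    · omega
  obtain ⟨s₁, hs₁, hfix₁, hav₁⟩ := exists_isFix_avoid N D hD {⊥} (by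
    intro W hW
    rw [Finset.mem_singleton] at hW
    rw [hW]
    exact hbot)
  have hs₁0 : s₁ ≠ 0 := fun h0 =>
    hav₁ ⊥ (Finset.mem_singleton_self _) ((Submodule.mem_bot _).mpr h0)
  set T : Finset (Place Kbar (FN N)) :=
    D.support ∪ (finite_ord_ne_zero (K := Kbar) s₁).toFinset with hT
  obtain ⟨s₂, hs₂, hfix₂, hav₂⟩ := exists_isFix_avoid N D hD
    (insert ⊥ (T.image fun P => riemannRochSpace (D - pt P))) (by
    intro W hW
    rw [Finset.mem_insert, Finset.mem_image] at hW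
    rcases hW with rfl | ⟨P, -, rfl⟩
    · exact hbot
    · exact hpt P)
  have hs₂0 : s₂ ≠ 0 := fun h0 =>
    hav₂ ⊥ (Finset.mem_insert_self _ _) ((Submodule.mem_bot _).mpr h0)
  refine ⟨s₁, hs₁, s₂, hs₂, hfix₁, hfix₂, hs₁0, hs₂0, fun P => ?_⟩
  by_cases hP : P ∈ T
  · right
    have h1 := hav₂ (riemannRochSpace (D - pt P))
      (Finset.mem_insert_of_mem (Finset.mem_image_of_mem _ hP))
    rw [F.mem_L_sub_pt_iff] at h1
    have h3 : ¬ (- D P < P.ord s₂) := fun h => h1 ⟨hs₂, Or.inr h⟩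
    rcases (mem_riemannRochSpace_iff.mp hs₂) P with h0 | h4
    · exact absurd h0 hs₂0
    · omega
  · left
    rw [hT, Finset.mem_union, not_or, Finsupp.mem_support_iff, not_not,
      Set.Finite.mem_toFinset, Set.mem_ofPred_eq, not_not] at hP
    rw [hP.1, hP.2, neg_zero]

end Modular

end Fermat.Agent.S17.H.Glue
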