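import Fermat.Agent.S17.H.Glue.Basic
import Fermat.Agent.S24.FFSum

/-!
# S17, route H, block GLUE: `Aff P₀` is a Dedekind domain with fraction field `F` (owner helper261)
-/

set_option autoImplicit false
set_option linter.unusedSectionVars false
set_option linter.style.haveILetI false

noncomputable section

open scoped Classical

namespace Fermat.Agent.S17.H.Glue

open AlgebraicCurve Fermat.Agent.S24.FF Fermat.Agent.S27 Fermat.Agent.S17 IsDedekindDomain
  IntermediateField
open scoped IntermediateField.algebraAdjoinAdjoin

variable {K F : Type*} [Field K] [Field F] [Algebra K F] [IsAlgClosed K] [CharZero K] [IsFF1 K F]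
  [NonConst K F] (P₀ : Place K F)

theorem mem_Aff_iff_isIntegral {t : F} (ht : t ∈ Aff P₀) (htr : Transcendental K t) (f : F) :
    f ∈ Aff P₀ ↔ IsIntegral (Algebra.adjoin K {t}) f := by
  haveI : FiniteDimensional K⟮t⟯ F := IsFF1.finite t htr
  haveI := isPrincipalIdealRing_adjoin t htr
  haveI : CharZero K⟮t⟯ := charZero_of_injective_algebraMap (algebraMap K K⟮t⟯).injective
  haveI : IsDedekindDomain (integralClosure (Algebra.adjoin K {t}) F) :=
    integralClosure.isDedekindDomain (Algebra.adjoin K {t}) K⟮t⟯ F
  haveI : IsFractionRing (integralClosure (Algebra.adjoin K {t}) F) F :=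
    integralClosure.isFractionRing_of_finite_extension K⟮t⟯ F
  constructor
  · intro hf
    have key : ∀ w : HeightOneSpectrum (integralClosure (Algebra.adjoin K {t}) F),
        w.valuation F f ≤ 1 := by
      intro w
      have hne : Place.ofHeightOneSpectrum (K := K) (F := F) w ≠ P₀ := by
        intro h
        have h1 := algebraMap_mem_ofHeightOneSpectrum (K := K) (F := F) w
          ⟨t, isIntegral_algebraMap (R := Algebra.adjoin K {t})
            (x := ⟨t, Algebra.self_mem_adjoin_singleton K t⟩)⟩
        rw [h] at h1
        have h2 := ord_nonneg_of_mem P₀ h1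
        have h3 := ord_neg_of_transcendental P₀ ht htr
        have h4 : algebraMap (integralClosure (Algebra.adjoin K {t}) F) F
          ⟨t, isIntegral_algebraMap (R := Algebra.adjoin K {t})
            (x := ⟨t, Algebra.self_mem_adjoin_singleton K t⟩)⟩ = t := rfl
        rw [h4] at h2
        omega
      have h5 := hf _ hne
      rwa [Place.ofHeightOneSpectrum_toValuationSubring, Valuation.mem_valuationSubring_iff] at h5
    obtain ⟨b, hb⟩ := HeightOneSpectrum.mem_integers_of_valuation_le_one F f key
    rw [← hb]
    exact b.2
  · intro hf v hv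
    exact mem_of_isIntegral v _ (adjoin_le_of_ord_nonneg v (mem_Aff_iff.mp ht v hv)) hf

theorem Aff_eq_restrictScalars {t : F} (ht : t ∈ Aff P₀) (htr : Transcendental K t) :
    Aff P₀ = (integralClosure (Algebra.adjoin K {t}) F).restrictScalars K :=
  SetLike.ext fun f => mem_Aff_iff_isIntegral P₀ ht htr f

theorem isDedekindDomain_Aff : IsDedekindDomain (Aff P₀) := by
  obtain ⟨t, ht, htr⟩ := exists_transcendental P₀
  haveI : FiniteDimensional K⟮t⟯ F := IsFF1.finite t htr
  haveI := isPrincipalIdealRing_adjoin t htr
  haveI : CharZero K⟮t⟯ := charZero_of_injective_algebraMap (algebraMap K K⟮t⟯).injective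
  have h : IsDedekindDomain (integralClosure (Algebra.adjoin K {t}) F) :=
    integralClosure.isDedekindDomain (Algebra.adjoin K {t}) K⟮t⟯ F
  rw [Aff_eq_restrictScalars P₀ ht htr]
  exact h

theorem isFractionRing_Aff : IsFractionRing (Aff P₀) F := by
  obtain ⟨t, ht, htr⟩ := exists_transcendental P₀
  haveI : FiniteDimensional K⟮t⟯ F := IsFF1.finite t htr
  haveI := isPrincipalIdealRing_adjoin t htr
  haveI : CharZero K⟮t⟯ := charZero_of_injective_algebraMap (algebraMap K K⟮t⟯).injective
  have h : IsFractionRing (integralClosure (Algebra.adjoin K {t}) F) F :=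
    integralClosure.isFractionRing_of_finite_extension K⟮t⟯ F
  rw [Aff_eq_restrictScalars P₀ ht htr]
  exact h

end Fermat.Agent.S17.H.Glue
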